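import Mathlib

/-!
# [SWD-ALG] the algebraic core of the Swinnerton-Dyer / Serre structure theorem

Everything here is Mathlib-only algebra over a field `k` of characteristic `l`.
Inputs: three formal power series `Ps Qs Rs` (the reductions of `E₂, E₄, E₆`) satisfying
Ramanujan's identities, and an isobaric polynomial `A` of weight `l - 1` with `A(Qs, Rs) = 1`
(the Hasse invariant).  Output: an isobaric polynomial `f` of weight `w` whose value
`f(Qs, Rs)` is a nonzero constant has `(l - 1) ∣ w`.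
-/

namespace Fermat.Agent.S16x.Swd.H14

noncomputable section

/-! ## 0. Monomials in two variables -/

section Mono

variable {k : Type*} [CommRing k]

/-- The weights `(4, 6)` of `E₄, E₆`. -/
abbrev wt : Fin 2 → ℕ := ![4, 6]

/-- The standard monomial `X₀ ^ a * X₁ ^ b`. -/
theorem monomial_fin_two (d : Fin 2 →₀ ℕ) (r : k) :
    (MvPolynomial.monomial d r : MvPolynomial (Fin 2) k)
      = MvPolynomial.C r * MvPolynomial.X 0 ^ d 0 * MvPolynomial.X 1 ^ d 1 := by
  rw [MvPolynomial.monomial_eq, Finsupp.prod_pow, Fin.prod_univ_two, mul_assoc]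

theorem weight_fin_two (d : Fin 2 →₀ ℕ) : Finsupp.weight wt d = 4 * d 0 + 6 * d 1 := by
  rw [Finsupp.weight_apply, Finsupp.sum_fintype _ _ (fun i => by simp), Fin.sum_univ_two]
  simp [wt, mul_comm]

theorem isWH_X0 : MvPolynomial.IsWeightedHomogeneous wt (MvPolynomial.X 0 : MvPolynomial (Fin 2) k) 4 := by
  simpa using MvPolynomial.isWeightedHomogeneous_X k wt (0 : Fin 2)

theorem isWH_X1 : MvPolynomial.IsWeightedHomogeneous wt (MvPolynomial.X 1 : MvPolynomial (Fin 2) k) 6 := by
  simpa using MvPolynomial.isWeightedHomogeneous_X k wt (1 : Fin 2)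

theorem isWH_mono (a b : ℕ) (r : k) :
    MvPolynomial.IsWeightedHomogeneous wt
      (MvPolynomial.C r * MvPolynomial.X 0 ^ a * MvPolynomial.X 1 ^ b : MvPolynomial (Fin 2) k)
      (4 * a + 6 * b) := by
  have h0 := (isWH_X0 (k := k)).pow a
  have h1 := (isWH_X1 (k := k)).pow b
  have h := ((MvPolynomial.isWeightedHomogeneous_C wt r).mul h0).mul h1
  simpa [mul_comm] using h

/-- Induction principle for isobaric polynomials in two variables of weights `(4, 6)`. -/
theorem wh_induction {n : ℕ} {motive : MvPolynomial (Fin 2) k → Prop}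
    (zero : motive 0)
    (add : ∀ p q, MvPolynomial.IsWeightedHomogeneous wt p n →
      MvPolynomial.IsWeightedHomogeneous wt q n → motive p → motive q → motive (p + q))
    (mono : ∀ (a b : ℕ) (r : k), 4 * a + 6 * b = n →
      motive (MvPolynomial.C r * MvPolynomial.X 0 ^ a * MvPolynomial.X 1 ^ b))
    {p : MvPolynomial (Fin 2) k} (hp : MvPolynomial.IsWeightedHomogeneous wt p n) : motive p := by
  refine MvPolynomial.IsWeightedHomogeneous.induction_on
    (motive := fun p _ => motive p) zero (fun p q hp hq => add p q hp hq) ?_ hp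
  intro d r hr
  rw [monomial_fin_two]
  exact mono _ _ r (by rw [← weight_fin_two, hr])

end Mono

/-! ## 1. Divisors of isobaric polynomials are isobaric (L4) -/

section Divisor

variable {k : Type*} [Field k]

/-- The grading substitution `Xᵢ ↦ Xᵢ * T ^ wt i`. -/
def gradeSubst : MvPolynomial (Fin 2) k →ₐ[k] Polynomial (MvPolynomial (Fin 2) k) :=
  MvPolynomial.aeval (fun i => Polynomial.C (MvPolynomial.X i) * Polynomial.X ^ wt i)

theorem gradeSubst_of_isWH {a : MvPolynomial (Fin 2) k} {n : ℕ}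
    (ha : MvPolynomial.IsWeightedHomogeneous wt a n) :
    gradeSubst a = Polynomial.C a * Polynomial.X ^ n := by
  refine wh_induction (motive := fun a => gradeSubst a = Polynomial.C a * Polynomial.X ^ n)
    (by simp) (fun p q _ _ hp hq => by simp [hp, hq, add_mul]) ?_ ha
  intro x y r hxy
  simp only [gradeSubst, map_mul, map_pow, MvPolynomial.aeval_X, MvPolynomial.aeval_C,
    Polynomial.algebraMap_apply, MvPolynomial.algebraMap_eq]
  subst hxy
  simp only [wt, Matrix.cons_val_zero, Matrix.cons_val_one, mul_pow, ← pow_mul, pow_add]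
  ring

theorem coeff_gradeSubst (a : MvPolynomial (Fin 2) k) (m : ℕ) :
    (gradeSubst a).coeff m = MvPolynomial.weightedHomogeneousComponent wt m a := by
  induction a using MvPolynomial.induction_on' with
  | monomial d r =>
    have h := MvPolynomial.isWeightedHomogeneous_monomial (R := k) wt d r rfl
    rw [gradeSubst_of_isWH h, Polynomial.coeff_C_mul, Polynomial.coeff_X_pow,
      MvPolynomial.weightedHomogeneousComponent_of_mem
        ((MvPolynomial.mem_weightedHomogeneousSubmodule k wt _ _).2 h)]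
    split_ifs <;> simp
  | add p q hp hq => simp [hp, hq]

theorem isWH_of_gradeSubst {a a' : MvPolynomial (Fin 2) k} {n : ℕ}
    (h : gradeSubst a = Polynomial.C a' * Polynomial.X ^ n) :
    MvPolynomial.IsWeightedHomogeneous wt a n := by
  intro d hd
  by_contra hne
  have h1 : MvPolynomial.weightedHomogeneousComponent wt (Finsupp.weight wt d) a = 0 := by
    rw [← coeff_gradeSubst, h, Polynomial.coeff_C_mul, Polynomial.coeff_X_pow, if_neg hne, mul_zero]
  have h2 := MvPolynomial.coeff_weightedHomogeneousComponent (w := wt) (n := Finsupp.weight wt d)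
    (φ := a) d
  rw [h1, if_pos rfl] at h2
  exact hd (by simpa using h2.symm)

/-- Over a domain, a divisor of a nonzero monomial `c * T ^ n` is a monomial. -/
theorem eq_monomial_of_mul_eq {S : Type*} [CommRing S] [IsDomain S] {u v : Polynomial S} {c : S}
    {n : ℕ} (hc : c ≠ 0) (h : u * v = Polynomial.C c * Polynomial.X ^ n) :
    ∃ (c₁ : S) (i : ℕ), u = Polynomial.C c₁ * Polynomial.X ^ i := by
  have hne : u * v ≠ 0 := by
    rw [h]
    exact mul_ne_zero (by simpa using hc) (pow_ne_zero _ Polynomial.X_ne_zero)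
  have hu : u ≠ 0 := left_ne_zero_of_mul hne
  have hv : v ≠ 0 := right_ne_zero_of_mul hne
  have hd : (u * v).natDegree = n := by rw [h, Polynomial.natDegree_C_mul_X_pow _ _ hc]
  have ht : (u * v).natTrailingDegree = n := by
    rw [h, Polynomial.C_mul_X_pow_eq_monomial, Polynomial.natTrailingDegree_monomial hc]
  rw [Polynomial.natDegree_mul hu hv] at hd
  rw [Polynomial.natTrailingDegree_mul hu hv] at ht
  have h1 := Polynomial.natTrailingDegree_le_natDegree u
  have h2 := Polynomial.natTrailingDegree_le_natDegree v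
  have h3 : u.natTrailingDegree = u.natDegree := by omega
  refine ⟨u.leadingCoeff, u.natDegree, ?_⟩
  ext j
  rw [Polynomial.coeff_C_mul, Polynomial.coeff_X_pow]
  rcases lt_trichotomy j u.natDegree with hj | hj | hj
  · rw [if_neg hj.ne, mul_zero]
    exact Polynomial.coeff_eq_zero_of_lt_natTrailingDegree (by omega)
  · subst hj; simp
  · rw [if_neg hj.ne', mul_zero]
    exact Polynomial.coeff_eq_zero_of_natDegree_lt hj

/-- (L4) a divisor of a nonzero isobaric polynomial is isobaric. -/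
theorem isWH_of_mul_left {a b : MvPolynomial (Fin 2) k} {n : ℕ}
    (h : MvPolynomial.IsWeightedHomogeneous wt (a * b) n) (hne : a * b ≠ 0) :
    ∃ i, MvPolynomial.IsWeightedHomogeneous wt a i := by
  have h1 : gradeSubst a * gradeSubst b = Polynomial.C (a * b) * Polynomial.X ^ n := by
    rw [← map_mul, gradeSubst_of_isWH h]
  obtain ⟨c₁, i, hi⟩ := eq_monomial_of_mul_eq hne h1
  exact ⟨i, isWH_of_gradeSubst hi⟩

/-- (L4) both factors of a nonzero isobaric polynomial are isobaric, and the weights add up. -/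
theorem isWH_of_mul {a b : MvPolynomial (Fin 2) k} {n : ℕ}
    (h : MvPolynomial.IsWeightedHomogeneous wt (a * b) n) (hne : a * b ≠ 0) :
    ∃ i j, MvPolynomial.IsWeightedHomogeneous wt a i ∧
      MvPolynomial.IsWeightedHomogeneous wt b j ∧ i + j = n := by
  obtain ⟨i, hi⟩ := isWH_of_mul_left h hne
  obtain ⟨j, hj⟩ := isWH_of_mul_left (a := b) (b := a) (by rwa [mul_comm]) (by rwa [mul_comm])
  exact ⟨i, j, hi, hj, MvPolynomial.IsWeightedHomogeneous.inj_right hne (hi.mul hj) h⟩

/-- An isobaric polynomial of weight `0` is a constant. -/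
theorem eq_C_of_isWH_zero {a : MvPolynomial (Fin 2) k}
    (h : MvPolynomial.IsWeightedHomogeneous wt a 0) : a = MvPolynomial.C (MvPolynomial.coeff 0 a) := by
  ext d
  rw [MvPolynomial.coeff_C]
  by_cases hd : 0 = d
  · rw [if_pos hd, hd]
  · rw [if_neg hd]
    by_contra hne
    have := h hne
    rw [weight_fin_two] at this
    apply hd
    ext i
    fin_cases i
    · simp; omega
    · simp; omega

/-- There is no nonzero isobaric polynomial of weight `2`. -/
theorem eq_zero_of_isWH_two {a : MvPolynomial (Fin 2) k}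
    (h : MvPolynomial.IsWeightedHomogeneous wt a 2) : a = 0 := by
  ext d
  by_contra hne
  have := h (d := d) (by simpa using hne)
  rw [weight_fin_two] at this
  omega

end Divisor

/-! ## 2. The operator `θ = q d/dq` on formal power series -/

section Theta

variable {k : Type*} [CommRing k]

/-- `θ = X * d/dX` on formal power series. -/
def theta (g : PowerSeries k) : PowerSeries k := PowerSeries.X * PowerSeries.derivative k g

theorem theta_add (f g : PowerSeries k) : theta (f + g) = theta f + theta g := by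
  simp [theta, mul_add]

theorem theta_mul (f g : PowerSeries k) : theta (f * g) = theta f * g + f * theta g := by
  simp only [theta, Derivation.leibniz, smul_eq_mul]
  ring

theorem theta_C (a : k) : theta (PowerSeries.C a) = 0 := by
  simp [theta]

theorem theta_one : theta (1 : PowerSeries k) = 0 := by
  simp [theta]

theorem coeff_theta (g : PowerSeries k) (n : ℕ) :
    PowerSeries.coeff n (theta g) = n * PowerSeries.coeff n g := by
  cases n with
  | zero => simp [theta]
  | succ n =>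
    rw [theta, PowerSeries.coeff_succ_X_mul, PowerSeries.coeff_derivative]
    push_cast
    ring

theorem constantCoeff_theta (g : PowerSeries k) : PowerSeries.constantCoeff (theta g) = 0 := by
  simp [theta]

theorem theta_map {k' : Type*} [CommRing k'] (φ : k →+* k') (g : PowerSeries k) :
    theta (PowerSeries.map φ g) = PowerSeries.map φ (theta g) := by
  ext n
  simp [coeff_theta]

/-- Coefficientwise characterisation of an identity `a * θ g = h`. -/
theorem mul_theta_eq_iff (a : k) (g h : PowerSeries k) :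
    PowerSeries.C a * theta g = h ↔
      ∀ n : ℕ, a * (n * PowerSeries.coeff n g) = PowerSeries.coeff n h := by
  constructor
  · intro e n
    rw [← e, PowerSeries.coeff_C_mul, coeff_theta]
  · intro e
    ext n
    rw [PowerSeries.coeff_C_mul, coeff_theta, e]

end Theta

/-! ## 3. The Ramanujan derivation `∂` and the Euler derivation on `k[X₀, X₁]` -/

section Deriv

variable (k : Type*) [CommRing k]

/-- The Ramanujan–Serre derivation `∂ = -4 X₁ ∂/∂X₀ - 6 X₀² ∂/∂X₁` (it is `12 θ - w P`). -/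
def ramD : Derivation k (MvPolynomial (Fin 2) k) (MvPolynomial (Fin 2) k) :=
  MvPolynomial.mkDerivation k ![-4 * MvPolynomial.X 1, -6 * MvPolynomial.X 0 ^ 2]

/-- The Euler derivation `4 X₀ ∂/∂X₀ + 6 X₁ ∂/∂X₁`. -/
def eulerD : Derivation k (MvPolynomial (Fin 2) k) (MvPolynomial (Fin 2) k) :=
  MvPolynomial.mkDerivation k ![4 * MvPolynomial.X 0, 6 * MvPolynomial.X 1]

variable {k}

@[simp] theorem ramD_X0 : ramD k (MvPolynomial.X 0) = -4 * MvPolynomial.X 1 := by
  simp [ramD]

@[simp] theorem ramD_X1 : ramD k (MvPolynomial.X 1) = -6 * MvPolynomial.X 0 ^ 2 := by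
  simp [ramD]

@[simp] theorem eulerD_X0 : eulerD k (MvPolynomial.X 0) = 4 * MvPolynomial.X 0 := by
  simp [eulerD]

@[simp] theorem eulerD_X1 : eulerD k (MvPolynomial.X 1) = 6 * MvPolynomial.X 1 := by
  simp [eulerD]

theorem ramD_C (a : k) : ramD k (MvPolynomial.C a) = 0 := by
  simp [ramD]

theorem eulerD_C (a : k) : eulerD k (MvPolynomial.C a) = 0 := by
  simp [eulerD]

theorem eulerD_X_pow (i : Fin 2) (a : ℕ) :
    eulerD k (MvPolynomial.X i ^ a) = ((a * wt i : ℕ) : MvPolynomial (Fin 2) k) * MvPolynomial.X i ^ a := by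
  induction a with
  | zero => simp
  | succ a ih =>
    rw [pow_succ, Derivation.leibniz, ih]
    fin_cases i
    · simp [wt]; ring
    · simp [wt]; ring

/-- Euler's identity for isobaric polynomials. -/
theorem eulerD_of_isWH {f : MvPolynomial (Fin 2) k} {n : ℕ}
    (hf : MvPolynomial.IsWeightedHomogeneous wt f n) :
    eulerD k f = (n : MvPolynomial (Fin 2) k) * f := by
  refine wh_induction (motive := fun f => eulerD k f = (n : MvPolynomial (Fin 2) k) * f)
    (by simp) (fun p q _ _ hp hq => by simp [hp, hq, mul_add]) ?_ hf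
  intro a b r hab
  subst hab
  simp only [Derivation.leibniz, eulerD_X_pow, eulerD_C, smul_eq_mul]
  simp [wt]
  ring

theorem isWH_cast {f : MvPolynomial (Fin 2) k} {m n : ℕ}
    (h : MvPolynomial.IsWeightedHomogeneous wt f m) (e : m = n) :
    MvPolynomial.IsWeightedHomogeneous wt f n := e ▸ h

theorem isWH_ramD_X (i : Fin 2) :
    MvPolynomial.IsWeightedHomogeneous wt (ramD k (MvPolynomial.X i)) (wt i + 2) := by
  fin_cases i
  · have h := (MvPolynomial.isWeightedHomogeneous_C wt (-4 : k)).mul (isWH_X1 (k := k))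
    have e : (-4 : MvPolynomial (Fin 2) k) = MvPolynomial.C (-4) := by
      rw [map_neg, map_ofNat]
    show MvPolynomial.IsWeightedHomogeneous wt (ramD k (MvPolynomial.X 0)) (wt 0 + 2)
    rw [ramD_X0, e]
    exact isWH_cast h (by simp [wt])
  · have h := (MvPolynomial.isWeightedHomogeneous_C wt (-6 : k)).mul ((isWH_X0 (k := k)).pow 2)
    have e : (-6 : MvPolynomial (Fin 2) k) = MvPolynomial.C (-6) := by
      rw [map_neg, map_ofNat]
    show MvPolynomial.IsWeightedHomogeneous wt (ramD k (MvPolynomial.X 1)) (wt 1 + 2)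
    rw [ramD_X1, e]
    exact isWH_cast h (by simp [wt])

theorem isWH_ramD_mul {x y : MvPolynomial (Fin 2) k} {m n : ℕ}
    (hx : MvPolynomial.IsWeightedHomogeneous wt x m)
    (hy : MvPolynomial.IsWeightedHomogeneous wt y n)
    (hdx : MvPolynomial.IsWeightedHomogeneous wt (ramD k x) (m + 2))
    (hdy : MvPolynomial.IsWeightedHomogeneous wt (ramD k y) (n + 2)) :
    MvPolynomial.IsWeightedHomogeneous wt (ramD k (x * y)) (m + n + 2) := by
  rw [Derivation.leibniz, smul_eq_mul, smul_eq_mul]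
  exact (isWH_cast (hx.mul hdy) (by ring)).add (isWH_cast (hy.mul hdx) (by ring))

theorem isWH_ramD_X_pow (i : Fin 2) (a : ℕ) :
    MvPolynomial.IsWeightedHomogeneous wt (ramD k (MvPolynomial.X i ^ a)) (a * wt i + 2) := by
  induction a with
  | zero => simpa using MvPolynomial.isWeightedHomogeneous_zero k wt _
  | succ a ih =>
    rw [pow_succ]
    have hx : MvPolynomial.IsWeightedHomogeneous wt (MvPolynomial.X i ^ a : MvPolynomial (Fin 2) k)
        (a * wt i) := by
      simpa using (MvPolynomial.isWeightedHomogeneous_X k wt i).pow a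
    exact isWH_cast (isWH_ramD_mul hx (MvPolynomial.isWeightedHomogeneous_X k wt i) ih
      (isWH_ramD_X i)) (by ring)

/-- `∂` raises the weight by `2`. -/
theorem isWH_ramD {f : MvPolynomial (Fin 2) k} {n : ℕ}
    (hf : MvPolynomial.IsWeightedHomogeneous wt f n) :
    MvPolynomial.IsWeightedHomogeneous wt (ramD k f) (n + 2) := by
  refine wh_induction (motive := fun f => MvPolynomial.IsWeightedHomogeneous wt (ramD k f) (n + 2))
    (by simpa using MvPolynomial.isWeightedHomogeneous_zero k wt _)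
    (fun p q _ _ hp hq => by rw [map_add]; exact hp.add hq) ?_ hf
  intro a b r hab
  have h0 : MvPolynomial.IsWeightedHomogeneous wt
      (MvPolynomial.C r * MvPolynomial.X 0 ^ a : MvPolynomial (Fin 2) k) (4 * a) := by
    simpa using isWH_mono a 0 r
  have h0' : MvPolynomial.IsWeightedHomogeneous wt
      (ramD k (MvPolynomial.C r * MvPolynomial.X 0 ^ a)) (4 * a + 2) := by
    have := isWH_ramD_mul (MvPolynomial.isWeightedHomogeneous_C wt r)
      (isWH_cast ((isWH_X0 (k := k)).pow a) rfl)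
      (by rw [ramD_C]; exact MvPolynomial.isWeightedHomogeneous_zero k wt _)
      (isWH_cast (isWH_ramD_X_pow (k := k) 0 a) rfl)
    exact isWH_cast this (by simp; ring)
  have h1 : MvPolynomial.IsWeightedHomogeneous wt
      (MvPolynomial.X 1 ^ b : MvPolynomial (Fin 2) k) (6 * b) := by
    simpa [mul_comm] using (isWH_X1 (k := k)).pow b
  have h1' : MvPolynomial.IsWeightedHomogeneous wt
      (ramD k (MvPolynomial.X 1 ^ b)) (6 * b + 2) :=
    isWH_cast (isWH_ramD_X_pow (k := k) 1 b) (by simp; ring)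
  exact isWH_cast (isWH_ramD_mul h0 h1 h0' h1') (by omega)

end Deriv

/-! ## 4. Evaluation at `(Qs, Rs)`: the identity `12 θ(f~) = w P f~ + (∂f)~` (F3) -/

section Eval

variable {k : Type*} [Field k] (Ps Qs Rs : PowerSeries k)

/-- Evaluation of a polynomial at `(Qs, Rs)`. -/
def ev : MvPolynomial (Fin 2) k →ₐ[k] PowerSeries k := MvPolynomial.aeval ![Qs, Rs]

/-- Evaluation of a polynomial at `(1, 1)`. -/
def ev1 : MvPolynomial (Fin 2) k →ₐ[k] k := MvPolynomial.aeval (fun _ => (1 : k))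

theorem ev_def (f : MvPolynomial (Fin 2) k) : ev Qs Rs f = MvPolynomial.aeval ![Qs, Rs] f := rfl

@[simp] theorem ev_X0 : ev Qs Rs (MvPolynomial.X 0) = Qs := by simp [ev]

@[simp] theorem ev_X1 : ev Qs Rs (MvPolynomial.X 1) = Rs := by simp [ev]

@[simp] theorem ev_C (a : k) : ev Qs Rs (MvPolynomial.C a) = PowerSeries.C a := by
  simp [ev]

@[simp] theorem ev1_X (i : Fin 2) : ev1 (k := k) (MvPolynomial.X i) = 1 := by simp [ev1]

@[simp] theorem ev1_C (a : k) : ev1 (k := k) (MvPolynomial.C a) = a := by simp [ev1]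

variable {Ps Qs Rs}

theorem constantCoeff_ev (hQ0 : PowerSeries.constantCoeff Qs = 1)
    (hR0 : PowerSeries.constantCoeff Rs = 1) (f : MvPolynomial (Fin 2) k) :
    PowerSeries.constantCoeff (ev Qs Rs f) = ev1 f := by
  induction f using MvPolynomial.induction_on with
  | C a => simp
  | add p q hp hq => simp [hp, hq]
  | mul_X p i hp =>
    rw [map_mul, map_mul, map_mul, hp]
    fin_cases i
    · simp [hQ0]
    · simp [hR0]

/-- (F3), general form. -/
theorem twelve_theta_ev (hQ : 3 * theta Qs = Ps * Qs - Rs)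
    (hR : 2 * theta Rs = Ps * Rs - Qs ^ 2) (f : MvPolynomial (Fin 2) k) :
    12 * theta (ev Qs Rs f) = Ps * ev Qs Rs (eulerD k f) + ev Qs Rs (ramD k f) := by
  induction f using MvPolynomial.induction_on with
  | C a => simp [theta_C]
  | add p q hp hq =>
    simp only [map_add, theta_add]
    linear_combination hp + hq
  | mul_X p i hp =>
    rw [map_mul, theta_mul, Derivation.leibniz, Derivation.leibniz]
    simp only [smul_eq_mul, map_add, map_mul]
    fin_cases i
    · simp only [Fin.zero_eta, ev_X0, ev_X1, eulerD_X0, ramD_X0, map_mul, map_neg, map_ofNat]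
      linear_combination Qs * hp + 4 * (ev Qs Rs p) * hQ
    · simp only [Fin.mk_one, ev_X0, ev_X1, eulerD_X1, ramD_X1, map_mul, map_neg, map_ofNat,
        map_pow]
      linear_combination Rs * hp + 6 * (ev Qs Rs p) * hR

/-- (F3) for isobaric polynomials: `12 θ(f~) = w P f~ + (∂f)~`. -/
theorem twelve_theta_ev_of_isWH (hQ : 3 * theta Qs = Ps * Qs - Rs)
    (hR : 2 * theta Rs = Ps * Rs - Qs ^ 2) {f : MvPolynomial (Fin 2) k} {n : ℕ}
    (hf : MvPolynomial.IsWeightedHomogeneous wt f n) :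
    12 * theta (ev Qs Rs f) = (n : PowerSeries k) * Ps * ev Qs Rs f + ev Qs Rs (ramD k f) := by
  rw [twelve_theta_ev hQ hR, eulerD_of_isWH hf, map_mul, map_natCast]
  ring

end Eval

/-! ## 5. Injectivity of the evaluation on each weight (F1) -/

section Inj

variable {k : Type*} [Field k] {Qs Rs : PowerSeries k}

/-- The discriminant polynomial `X₀³ - X₁²` (it is `1728 Δ`). -/
def discP (k : Type*) [CommRing k] : MvPolynomial (Fin 2) k :=
  MvPolynomial.X 0 ^ 3 - MvPolynomial.X 1 ^ 2

theorem isWH_discP : MvPolynomial.IsWeightedHomogeneous wt (discP k) 12 := by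
  have h0 := (isWH_X0 (k := k)).pow 3
  have h1 := (isWH_X1 (k := k)).pow 2
  exact (isWH_cast h0 (by simp)).sub (isWH_cast h1 (by simp))

theorem ev_discP : ev Qs Rs (discP k) = Qs ^ 3 - Rs ^ 2 := by
  simp [discP]

theorem discP_dvd_mono_sub_aux (a b j : ℕ) :
    discP k ∣ MvPolynomial.X 0 ^ (a + 3 * j) * MvPolynomial.X 1 ^ b
      - MvPolynomial.X 0 ^ a * MvPolynomial.X 1 ^ (b + 2 * j) := by
  have h : (MvPolynomial.X 0 ^ (a + 3 * j) * MvPolynomial.X 1 ^ b
      - MvPolynomial.X 0 ^ a * MvPolynomial.X 1 ^ (b + 2 * j) : MvPolynomial (Fin 2) k)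
      = MvPolynomial.X 0 ^ a * MvPolynomial.X 1 ^ b *
        ((MvPolynomial.X 0 ^ 3) ^ j - (MvPolynomial.X 1 ^ 2) ^ j) := by
    rw [← pow_mul, ← pow_mul, pow_add, pow_add]
    ring
  rw [h]
  exact Dvd.dvd.mul_left (sub_dvd_pow_sub_pow _ _ j) _

theorem discP_dvd_mono_sub {a b a' b' : ℕ} (h : 4 * a + 6 * b = 4 * a' + 6 * b') :
    discP k ∣ MvPolynomial.X 0 ^ a * MvPolynomial.X 1 ^ b
      - MvPolynomial.X 0 ^ a' * MvPolynomial.X 1 ^ b' := by
  rcases le_total b b' with hb | hb
  · obtain ⟨j, hj⟩ : ∃ j, b' = b + 2 * j := ⟨(b' - b) / 2, by omega⟩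
    have ha : a = a' + 3 * j := by omega
    subst hj ha
    exact discP_dvd_mono_sub_aux a' b j
  · obtain ⟨j, hj⟩ : ∃ j, b = b' + 2 * j := ⟨(b - b') / 2, by omega⟩
    have ha : a' = a + 3 * j := by omega
    subst hj ha
    have := discP_dvd_mono_sub_aux (k := k) a b' j
    rw [← dvd_neg] at this
    simpa using this

theorem discP_dvd_sub {f : MvPolynomial (Fin 2) k} {n a₀ b₀ : ℕ}
    (hf : MvPolynomial.IsWeightedHomogeneous wt f n) (h₀ : 4 * a₀ + 6 * b₀ = n) :
    discP k ∣ f - MvPolynomial.C (ev1 f) * (MvPolynomial.X 0 ^ a₀ * MvPolynomial.X 1 ^ b₀) := by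
  refine wh_induction (motive := fun f => discP k ∣
    f - MvPolynomial.C (ev1 f) * (MvPolynomial.X 0 ^ a₀ * MvPolynomial.X 1 ^ b₀))
    (by simp) ?_ ?_ hf
  · intro p q _ _ hp hq
    have := dvd_add hp hq
    convert this using 1
    simp only [map_add]
    ring
  · intro a b r hab
    have h := discP_dvd_mono_sub (k := k) (hab.trans h₀.symm)
    have e : (MvPolynomial.C r * MvPolynomial.X 0 ^ a * MvPolynomial.X 1 ^ b
        - MvPolynomial.C (ev1 (MvPolynomial.C r * MvPolynomial.X 0 ^ a * MvPolynomial.X 1 ^ b))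
          * (MvPolynomial.X 0 ^ a₀ * MvPolynomial.X 1 ^ b₀) : MvPolynomial (Fin 2) k)
        = MvPolynomial.C r * (MvPolynomial.X 0 ^ a * MvPolynomial.X 1 ^ b
          - MvPolynomial.X 0 ^ a₀ * MvPolynomial.X 1 ^ b₀) := by
      simp only [map_mul, map_pow, ev1_X, ev1_C, one_pow, mul_one]
      ring
    rw [e]
    exact Dvd.dvd.mul_left h _

/-- (F1) the evaluation at `(Qs, Rs)` is injective on isobaric polynomials of a given weight. -/
theorem eq_zero_of_ev_eq_zero (hQ0 : PowerSeries.constantCoeff Qs = 1)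
    (hR0 : PowerSeries.constantCoeff Rs = 1) (hD : Qs ^ 3 - Rs ^ 2 ≠ 0) :
    ∀ (n : ℕ) (f : MvPolynomial (Fin 2) k), MvPolynomial.IsWeightedHomogeneous wt f n →
      ev Qs Rs f = 0 → f = 0 := by
  intro n
  induction n using Nat.strong_induction_on with
  | _ n ih =>
    intro f hf hev
    by_contra hf0
    obtain ⟨d, hd⟩ := MvPolynomial.ne_zero_iff.1 hf0
    have hw := hf hd
    rw [weight_fin_two] at hw
    have h1 := discP_dvd_sub hf hw
    have h2 : ev1 f = 0 := by rw [← constantCoeff_ev hQ0 hR0, hev, map_zero]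
    rw [h2, map_zero, zero_mul, sub_zero] at h1
    obtain ⟨g, rfl⟩ := h1
    obtain ⟨i, j, hi, hj, hij⟩ := isWH_of_mul hf hf0
    have hi12 : i = 12 :=
      MvPolynomial.IsWeightedHomogeneous.inj_right (left_ne_zero_of_mul hf0) hi isWH_discP
    rw [map_mul, ev_discP] at hev
    have hg : ev Qs Rs g = 0 := (mul_eq_zero.1 hev).resolve_left hD
    have := ih j (by omega) g hj hg
    exact hf0 (by rw [this, mul_zero])

theorem eq_of_ev_eq (hQ0 : PowerSeries.constantCoeff Qs = 1)
    (hR0 : PowerSeries.constantCoeff Rs = 1) (hD : Qs ^ 3 - Rs ^ 2 ≠ 0)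
    {n : ℕ} {f g : MvPolynomial (Fin 2) k} (hf : MvPolynomial.IsWeightedHomogeneous wt f n)
    (hg : MvPolynomial.IsWeightedHomogeneous wt g n) (h : ev Qs Rs f = ev Qs Rs g) : f = g := by
  have := eq_zero_of_ev_eq_zero hQ0 hR0 hD n (f - g) (hf.sub hg) (by rw [map_sub, h, sub_self])
  exact sub_eq_zero.1 this

end Inj

/-! ## 6. The Hasse invariant is squarefree (F5, F6) and the weight filtration (F7) -/

section Hasse

variable {k : Type*} [Field k] {l : ℕ} [Fact l.Prime] [CharP k l]
  {Ps Qs Rs : PowerSeries k} {A : MvPolynomial (Fin 2) k}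

theorem natCast_l_eq_zero (k : Type*) [Field k] (l : ℕ) [CharP k l] :
    ((l : ℕ) : PowerSeries k) = 0 := by
  rw [← map_natCast (PowerSeries.C (R := k)), CharP.cast_eq_zero, map_zero]

omit [Fact l.Prime] in
theorem natCast_ne_zero_of_lt {c : ℕ} (h0 : 0 < c) (hc : c < l) : ((c : ℕ) : k) ≠ 0 := by
  intro h
  rw [CharP.cast_eq_zero_iff k l] at h
  exact absurd (Nat.le_of_dvd h0 h) (by omega)

omit [Fact l.Prime] in
theorem not_dvd_natCast {π : MvPolynomial (Fin 2) k} (hπ : ¬ IsUnit π) {c : ℕ} (h0 : 0 < c)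
    (hc : c < l) : ¬ π ∣ ((c : ℕ) : MvPolynomial (Fin 2) k) := by
  intro h
  have hu : IsUnit ((c : ℕ) : MvPolynomial (Fin 2) k) := by
    rw [← map_natCast (MvPolynomial.C (R := k) (σ := Fin 2))]
    exact (isUnit_iff_ne_zero.2 (natCast_ne_zero_of_lt (k := k) (l := l) h0 hc)).map
      MvPolynomial.C
  exact hπ (isUnit_of_dvd_unit h hu)

/-- A non-unit isobaric polynomial has positive weight. -/
theorem weight_pos_of_not_isUnit {π : MvPolynomial (Fin 2) k} {v : ℕ}
    (h : MvPolynomial.IsWeightedHomogeneous wt π v) (h0 : π ≠ 0) (hu : ¬ IsUnit π) : 0 < v := by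
  rcases Nat.eq_zero_or_pos v with hv | hv
  · subst hv
    exfalso
    apply hu
    have e := eq_C_of_isWH_zero h
    rw [e]
    refine (isUnit_iff_ne_zero.2 ?_).map MvPolynomial.C
    intro hc
    rw [hc, map_zero] at e
    exact h0 e
  · exact hv

theorem hasse_ne_zero (hAq : ev Qs Rs A = 1) : A ≠ 0 := by
  intro h
  rw [h, map_zero] at hAq
  exact zero_ne_one hAq

/-- (F5a) `(∂A)~ = P`. -/
theorem ev_ramD_hasse (hQ : 3 * theta Qs = Ps * Qs - Rs) (hR : 2 * theta Rs = Ps * Rs - Qs ^ 2)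
    (hA : MvPolynomial.IsWeightedHomogeneous wt A (l - 1)) (hAq : ev Qs Rs A = 1) :
    ev Qs Rs (ramD k A) = Ps := by
  have h := twelve_theta_ev_of_isWH hQ hR hA
  have hl1 : 1 ≤ l := (Fact.out : l.Prime).one_lt.le
  rw [hAq, theta_one, Nat.cast_sub hl1, natCast_l_eq_zero k l] at h
  simp only [Nat.cast_one, zero_sub, mul_zero, mul_one] at h
  linear_combination -h

/-- (F5b) `∂(∂A) = -X₀ * A`. -/
theorem ramD_ramD_hasse (hQ0 : PowerSeries.constantCoeff Qs = 1)
    (hR0 : PowerSeries.constantCoeff Rs = 1) (hD : Qs ^ 3 - Rs ^ 2 ≠ 0)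
    (hP : 12 * theta Ps = Ps ^ 2 - Qs)
    (hQ : 3 * theta Qs = Ps * Qs - Rs) (hR : 2 * theta Rs = Ps * Rs - Qs ^ 2)
    (hA : MvPolynomial.IsWeightedHomogeneous wt A (l - 1)) (hAq : ev Qs Rs A = 1) :
    ramD k (ramD k A) = -(MvPolynomial.X 0 * A) := by
  have hl1 : 1 ≤ l := (Fact.out : l.Prime).one_lt.le
  have hB := isWH_ramD hA
  have hBq := ev_ramD_hasse hQ hR hA hAq
  have h := twelve_theta_ev_of_isWH hQ hR hB
  have hc : ((l - 1 + 2 : ℕ) : PowerSeries k) = 1 := by
    have : l - 1 + 2 = l + 1 := by omega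
    rw [this, Nat.cast_add, natCast_l_eq_zero k l, Nat.cast_one, zero_add]
  rw [hBq, hc] at h
  have h2 : ev Qs Rs (ramD k (ramD k A)) = ev Qs Rs (-(MvPolynomial.X 0 * A)) := by
    rw [map_neg, map_mul, hAq, ev_X0]
    linear_combination hP - h
  refine eq_of_ev_eq hQ0 hR0 hD (isWH_ramD hB) ?_ h2
  exact isWH_cast ((isWH_X0 (k := k)).mul hA).neg (by omega)

/-- A non-unit divisor `π` of the Hasse invariant does not divide `∂π`. -/
theorem not_dvd_ramD_of_dvd_hasse (hQ0 : PowerSeries.constantCoeff Qs = 1)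
    (hR0 : PowerSeries.constantCoeff Rs = 1) (hP0 : PowerSeries.constantCoeff Ps = 1)
    (hQ : 3 * theta Qs = Ps * Qs - Rs) (hR : 2 * theta Rs = Ps * Rs - Qs ^ 2)
    (hA : MvPolynomial.IsWeightedHomogeneous wt A (l - 1)) (hAq : ev Qs Rs A = 1)
    {π : MvPolynomial (Fin 2) k} (hπA : π ∣ A) (hπ : ¬ IsUnit π) : ¬ π ∣ ramD k π := by
  have hA0 := hasse_ne_zero hAq
  have hl1 : 1 ≤ l := (Fact.out : l.Prime).one_lt.le
  obtain ⟨m, rfl⟩ := hπA
  obtain ⟨v, v', hv, hv', hvv⟩ := isWH_of_mul hA hA0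
  have hπ0 : π ≠ 0 := left_ne_zero_of_mul hA0
  have hvpos := weight_pos_of_not_isUnit hv hπ0 hπ
  have hvl : v < l := by omega
  intro hdvd
  -- `∂π = 0`
  have hd0 : ramD k π = 0 := by
    by_contra hne
    obtain ⟨μ, hμ⟩ := hdvd
    have hwh : MvPolynomial.IsWeightedHomogeneous wt (π * μ) (v + 2) := hμ ▸ isWH_ramD hv
    obtain ⟨i, j, hi, hj, hij⟩ := isWH_of_mul hwh (hμ ▸ hne)
    have hiv : i = v := MvPolynomial.IsWeightedHomogeneous.inj_right hπ0 hi hv
    have hj2 : j = 2 := by omega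
    subst hj2
    have := eq_zero_of_isWH_two hj
    rw [this, mul_zero] at hμ
    exact hne hμ
  have h := twelve_theta_ev_of_isWH hQ hR hv
  rw [hd0, map_zero, add_zero] at h
  have hc := congrArg PowerSeries.constantCoeff h
  rw [map_mul, constantCoeff_theta, mul_zero, map_mul, map_mul, hP0, mul_one,
    constantCoeff_ev hQ0 hR0, map_natCast] at hc
  have hu : ev1 π ≠ 0 := by
    intro h0
    have h1 := congrArg PowerSeries.constantCoeff hAq
    rw [constantCoeff_ev hQ0 hR0, map_mul, h0, zero_mul, map_one] at h1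
    exact zero_ne_one h1
  rcases mul_eq_zero.1 hc.symm with h1 | h1
  · exact natCast_ne_zero_of_lt (k := k) (l := l) hvpos hvl h1
  · exact hu h1

/-- (F6) the Hasse invariant is squarefree. -/
theorem squarefree_hasse (hQ0 : PowerSeries.constantCoeff Qs = 1)
    (hR0 : PowerSeries.constantCoeff Rs = 1) (hP0 : PowerSeries.constantCoeff Ps = 1)
    (hD : Qs ^ 3 - Rs ^ 2 ≠ 0) (hP : 12 * theta Ps = Ps ^ 2 - Qs)
    (hQ : 3 * theta Qs = Ps * Qs - Rs) (hR : 2 * theta Rs = Ps * Rs - Qs ^ 2)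
    (hA : MvPolynomial.IsWeightedHomogeneous wt A (l - 1)) (hAq : ev Qs Rs A = 1) :
    Squarefree A := by
  have hA0 := hasse_ne_zero hAq
  have hl1 : 1 ≤ l := (Fact.out : l.Prime).one_lt.le
  intro x hx
  by_contra hxu
  have hx0 : x ≠ 0 := by
    rintro rfl
    rw [zero_mul, zero_dvd_iff] at hx
    exact hA0 hx
  obtain ⟨π, hπirr, hπx⟩ := WfDvdMonoid.exists_irreducible_factor hxu hx0
  have hππ : π * π ∣ A := dvd_trans (mul_dvd_mul hπx hπx) hx
  have hπu : ¬ IsUnit π := hπirr.not_isUnit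
  have hπ0 : π ≠ 0 := hπirr.ne_zero
  have hπp : Prime π := hπirr.prime
  have hnd := not_dvd_ramD_of_dvd_hasse hQ0 hR0 hP0 hQ hR hA hAq
    (dvd_trans (dvd_mul_right π π) hππ) hπu
  obtain ⟨n, m, hm, hAe⟩ := WfDvdMonoid.max_power_factor hA0 hπirr
  -- `n ≥ 2`
  have hn2 : 2 ≤ n := by
    by_contra hlt
    have hn : n = 0 ∨ n = 1 := by omega
    rcases hn with rfl | rfl
    · rw [pow_zero, one_mul] at hAe
      exact hm (hAe ▸ dvd_trans (dvd_mul_right π π) hππ)
    · rw [pow_one] at hAe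
      rw [hAe] at hππ
      exact hm ((mul_dvd_mul_iff_left hπ0).1 hππ)
  -- `n < l`
  have hnl : n < l := by
    have hwh : MvPolynomial.IsWeightedHomogeneous wt (π ^ n * m) (l - 1) := hAe ▸ hA
    obtain ⟨i, j, hi, hj, hij⟩ := isWH_of_mul hwh (hAe ▸ hA0)
    have hπn : π ^ n ∣ A := ⟨m, hAe⟩
    obtain ⟨v, hv⟩ := isWH_of_mul_left (a := π) (b := π ^ (n - 1) * m) (n := l - 1)
      (by
        have : π * (π ^ (n - 1) * m) = A := by
          rw [hAe, ← mul_assoc, ← pow_succ']
          congr 2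
          omega
        rw [this]; exact hA)
      (by
        have : π * (π ^ (n - 1) * m) = A := by
          rw [hAe, ← mul_assoc, ← pow_succ']
          congr 2
          omega
        rw [this]; exact hA0)
    have hvpos := weight_pos_of_not_isUnit hv hπ0 hπu
    have hi' : i = n • v :=
      MvPolynomial.IsWeightedHomogeneous.inj_right (pow_ne_zero _ hπ0) hi (hv.pow n)
    have : n ≤ n * v := Nat.le_mul_of_pos_right n hvpos
    simp only [smul_eq_mul] at hi'
    omega
  obtain ⟨j, rfl⟩ : ∃ j, n = j + 2 := ⟨n - 2, by omega⟩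
  -- first derivative
  set u : MvPolynomial (Fin 2) k := π * ramD k m + ((j + 2 : ℕ) : MvPolynomial (Fin 2) k) * m * ramD k π
    with hu
  have hB : ramD k A = π ^ (j + 1) * u := by
    rw [hAe, Derivation.leibniz, Derivation.leibniz_pow, hu]
    simp only [smul_eq_mul, nsmul_eq_mul, show j + 2 - 1 = j + 1 by omega]
    ring
  have hBB : ramD k (ramD k A) =
      π ^ j * (π * ramD k u + ((j + 1 : ℕ) : MvPolynomial (Fin 2) k) * u * ramD k π) := by
    rw [hB, Derivation.leibniz, Derivation.leibniz_pow]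
    simp only [smul_eq_mul, nsmul_eq_mul, Nat.add_sub_cancel]
    ring
  have hF5 := ramD_ramD_hasse hQ0 hR0 hD hP hQ hR hA hAq
  rw [hBB] at hF5
  have hF5' : π ^ j * (π * ramD k u + ((j + 1 : ℕ) : MvPolynomial (Fin 2) k) * u * ramD k π)
      = π ^ j * (-(MvPolynomial.X 0 * (π ^ 2 * m))) := by
    rw [hF5, hAe]
    ring
  have hF5'' := mul_left_cancel₀ (pow_ne_zero j hπ0) hF5'
  have h1 : π ∣ ((j + 1 : ℕ) : MvPolynomial (Fin 2) k) * u * ramD k π := by
    have : ((j + 1 : ℕ) : MvPolynomial (Fin 2) k) * u * ramD k π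
        = π * (-(MvPolynomial.X 0 * (π * m)) - ramD k u) := by
      linear_combination hF5''
    exact ⟨_, this⟩
  rcases hπp.dvd_or_dvd h1 with h2 | h2
  · rcases hπp.dvd_or_dvd h2 with h3 | h3
    · exact not_dvd_natCast (l := l) hπu (by omega) (by omega) h3
    · -- `π ∣ u`
      have h4 : π ∣ ((j + 2 : ℕ) : MvPolynomial (Fin 2) k) * m * ramD k π := by
        have : ((j + 2 : ℕ) : MvPolynomial (Fin 2) k) * m * ramD k π = u - π * ramD k m := by
          rw [hu]; ring
        rw [this]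
        exact dvd_sub h3 (dvd_mul_right _ _)
      rcases hπp.dvd_or_dvd h4 with h5 | h5
      · rcases hπp.dvd_or_dvd h5 with h6 | h6
        · exact not_dvd_natCast (l := l) hπu (by omega) hnl h6
        · exact hm h6
      · exact hnd h5
  · exact hnd h2

theorem pow_mul_eq_pow_mul_aux {R : Type*} [CommRing R] [IsDomain R] {π a b : R} (hπ : Prime π)
    (ha : ¬ π ∣ a) {i j : ℕ} (hij : i ≤ j) (h : π ^ i * a = π ^ j * b) : i = j := by
  obtain ⟨t, rfl⟩ := Nat.exists_eq_add_of_le hij
  rw [pow_add, mul_assoc] at h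
  have h' := mul_left_cancel₀ (pow_ne_zero i hπ.ne_zero) h
  rcases Nat.eq_zero_or_pos t with rfl | ht
  · rfl
  · exfalso
    apply ha
    rw [h']
    exact Dvd.dvd.mul_right (dvd_pow_self π ht.ne') b

theorem pow_mul_eq_pow_mul {R : Type*} [CommRing R] [IsDomain R] {π a b : R} (hπ : Prime π)
    (ha : ¬ π ∣ a) (hb : ¬ π ∣ b) {i j : ℕ} (h : π ^ i * a = π ^ j * b) : i = j := by
  rcases le_total i j with hij | hij
  · exact pow_mul_eq_pow_mul_aux hπ ha hij h
  · exact (pow_mul_eq_pow_mul_aux hπ hb hij h.symm).symm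

/-- (F7) the weight of an isobaric polynomial with nonzero constant value is divisible by
`l - 1`. -/
theorem dvd_weight_of_ev_eq_C (hl : 5 ≤ l) (hQ0 : PowerSeries.constantCoeff Qs = 1)
    (hR0 : PowerSeries.constantCoeff Rs = 1) (hP0 : PowerSeries.constantCoeff Ps = 1)
    (hD : Qs ^ 3 - Rs ^ 2 ≠ 0) (hP : 12 * theta Ps = Ps ^ 2 - Qs)
    (hQ : 3 * theta Qs = Ps * Qs - Rs) (hR : 2 * theta Rs = Ps * Rs - Qs ^ 2)
    (hA : MvPolynomial.IsWeightedHomogeneous wt A (l - 1)) (hAq : ev Qs Rs A = 1)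
    {f : MvPolynomial (Fin 2) k} {w : ℕ} (hf : MvPolynomial.IsWeightedHomogeneous wt f w)
    {c : k} (hc : c ≠ 0) (hfq : ev Qs Rs f = PowerSeries.C c) : (l - 1) ∣ w := by
  have hA0 := hasse_ne_zero hAq
  have hsq := squarefree_hasse hQ0 hR0 hP0 hD hP hQ hR hA hAq
  have hf0 : f ≠ 0 := by
    intro h
    rw [h, map_zero] at hfq
    exact hc ((map_eq_zero_iff _ PowerSeries.C_injective).1 hfq.symm)
  -- `f ^ (l - 1) = c ^ (l - 1) * A ^ w`
  have hpow : f ^ (l - 1) = MvPolynomial.C (c ^ (l - 1)) * A ^ w := by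
    refine eq_of_ev_eq hQ0 hR0 hD (n := (l - 1) * w) (isWH_cast (hf.pow (l - 1)) (by simp)) ?_ ?_
    · exact isWH_cast ((MvPolynomial.isWeightedHomogeneous_C wt _).mul (hA.pow w))
        (by simp [mul_comm])
    · simp only [map_pow, map_mul, hfq, hAq, ev_C, one_pow, mul_one]
  -- `A` is not a unit
  have hAu : ¬ IsUnit A := by
    intro hu
    obtain ⟨b, hb⟩ := hu.exists_right_inv
    have h1 : MvPolynomial.IsWeightedHomogeneous wt (A * b) 0 := by
      rw [hb]; exact MvPolynomial.isWeightedHomogeneous_one k wt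
    obtain ⟨i, j, hi, hj, hij⟩ := isWH_of_mul h1 (by rw [hb]; exact one_ne_zero)
    have := MvPolynomial.IsWeightedHomogeneous.inj_right hA0 hi hA
    omega
  obtain ⟨π, hπirr, hπA⟩ := WfDvdMonoid.exists_irreducible_factor hAu hA0
  have hπp : Prime π := hπirr.prime
  obtain ⟨m, hm⟩ := hπA
  have hπm : ¬ π ∣ m := by
    rintro ⟨m', rfl⟩
    exact hπirr.not_isUnit (hsq π ⟨m', by rw [hm]; ring⟩)
  obtain ⟨e, g, hg, hfe⟩ := WfDvdMonoid.max_power_factor hf0 hπirr
  have key : π ^ (e * (l - 1)) * g ^ (l - 1) = π ^ w * (MvPolynomial.C (c ^ (l - 1)) * m ^ w) := by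
    have : π ^ (e * (l - 1)) * g ^ (l - 1) = f ^ (l - 1) := by
      rw [hfe, mul_pow, ← pow_mul]
    rw [this, hpow, hm, mul_pow]
    ring
  have hg' : ¬ π ∣ g ^ (l - 1) := fun h => hg (hπp.dvd_of_dvd_pow h)
  have hm' : ¬ π ∣ MvPolynomial.C (c ^ (l - 1)) * m ^ w := by
    intro h
    rcases hπp.dvd_or_dvd h with h1 | h1
    · exact hπirr.not_isUnit (isUnit_of_dvd_unit h1
        ((isUnit_iff_ne_zero.2 (pow_ne_zero _ hc)).map MvPolynomial.C))
    · exact hπm (hπp.dvd_of_dvd_pow h1)
  have := pow_mul_eq_pow_mul hπp hg' hm' key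
  exact ⟨e, by rw [← this, mul_comm]⟩

end Hasse

/-! ## 7. The main theorem -/

/-- **[SWD-ALG]** Let `k` be a field of characteristic `l ≥ 5`, let `Ps, Qs, Rs ∈ k⟦X⟧` have
constant term `1` and satisfy Ramanujan's identities, with `Qs³ - Rs²` of order exactly one, and
let `A` be an isobaric polynomial of weight `l - 1` with `A(Qs, Rs) = 1`.  If `f` is isobaric
of weight `w` and `f(Qs, Rs)` is a nonzero constant, then `(l - 1) ∣ w`. -/
theorem swd_core (k : Type*) [Field k] (l : ℕ) [Fact l.Prime] [CharP k l] (hl : 5 ≤ l)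
    (Ps Qs Rs : PowerSeries k)
    (hP0 : PowerSeries.constantCoeff Ps = 1) (hQ0 : PowerSeries.constantCoeff Qs = 1)
    (hR0 : PowerSeries.constantCoeff Rs = 1)
    (hD0 : PowerSeries.coeff 1 (Qs ^ 3 - Rs ^ 2) ≠ 0)
    (hP : 12 * theta Ps = Ps ^ 2 - Qs) (hQ : 3 * theta Qs = Ps * Qs - Rs)
    (hR : 2 * theta Rs = Ps * Rs - Qs ^ 2)
    (A : MvPolynomial (Fin 2) k) (hA : MvPolynomial.IsWeightedHomogeneous ![4, 6] A (l - 1))
    (hAq : MvPolynomial.aeval ![Qs, Rs] A = 1)
    (f : MvPolynomial (Fin 2) k) (w : ℕ) (hf : MvPolynomial.IsWeightedHomogeneous ![4, 6] f w)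
    (c : k) (hc : c ≠ 0) (hfq : MvPolynomial.aeval ![Qs, Rs] f = PowerSeries.C c) :
    (l - 1) ∣ w := by
  have hD : Qs ^ 3 - Rs ^ 2 ≠ 0 := by
    intro h
    rw [h, map_zero] at hD0
    exact hD0 rfl
  exact dvd_weight_of_ev_eq_C hl hQ0 hR0 hP0 hD hP hQ hR hA hAq hf hc hfq

end

end Fermat.Agent.S16x.Swd.H14
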