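import Mathlib

/-!
# S16, package [SWD], leaf [POLY] (helper29)

Level-one modular forms with `R`-integral `q`-expansion are `R`-polynomials in `E₄`, `E₆`
(`R` a subring of `ℂ` containing `1/2` and `1/3`), with the expected weighted degree.

Main statements (namespace `Fermat.Agent.S16x.Swd.H29`):

* `psR R : Subring ℂ⟦X⟧` : power series with coefficients in `R`
  (`mem_psR : F ∈ psR R ↔ ∀ n, coeff n F ∈ R`);
* `psR_of_mul` : division by a series `q + ...` with coefficients in `R`;
* `qE4_mem`, `qE6_mem`, `qDelta_mem` : the `q`-expansions of `E₄`, `E₆`, `Δ` lie in `psR R`;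
* `poly_nat`, `poly_int` : the structure theorem.
-/

set_option autoImplicit false

open UpperHalfPlane ModularForm SlashInvariantForm SlashInvariantFormClass ModularFormClass
  CuspFormClass MatrixGroups EisensteinSeries

noncomputable section

namespace Fermat.Agent.S16x.Swd.H29

/-! ### Power series with coefficients in a subring -/

/-- Power series over `ℂ` with coefficients in the subring `R`. -/
def psR (R : Subring ℂ) : Subring (PowerSeries ℂ) := (PowerSeries.map R.subtype).range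

theorem mem_psR {R : Subring ℂ} {F : PowerSeries ℂ} :
    F ∈ psR R ↔ ∀ n, PowerSeries.coeff n F ∈ R := by
  constructor
  · rintro ⟨G, rfl⟩ n
    rw [PowerSeries.coeff_map]
    exact (PowerSeries.coeff n G).2
  · intro h
    refine ⟨PowerSeries.mk fun n => ⟨PowerSeries.coeff n F, h n⟩, ?_⟩
    ext n
    simp [PowerSeries.coeff_map]

theorem C_mem_psR {R : Subring ℂ} {c : ℂ} (hc : c ∈ R) : PowerSeries.C c ∈ psR R := by
  rw [mem_psR]
  intro n
  rw [PowerSeries.coeff_C]
  split_ifs
  · exact hc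
  · exact R.zero_mem

theorem smul_mem_psR {R : Subring ℂ} {c : ℂ} (hc : c ∈ R) {F : PowerSeries ℂ}
    (hF : F ∈ psR R) : c • F ∈ psR R := by
  rw [mem_psR] at hF ⊢
  intro n
  rw [PowerSeries.coeff_smul]
  exact R.mul_mem hc (hF n)

theorem map_subtype_injective (R : Subring ℂ) :
    Function.Injective (PowerSeries.map R.subtype) :=
  PowerSeries.map_injective _ Subtype.val_injective

/-- Division by a power series `q + ...` with coefficients in `R`. -/
theorem psR_of_mul {R : Subring ℂ} {D B : PowerSeries ℂ} (hD : D ∈ psR R)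
    (hD0 : PowerSeries.coeff 0 D = 0) (hD1 : PowerSeries.coeff 1 D = 1)
    (hDB : D * B ∈ psR R) : B ∈ psR R := by
  obtain ⟨D', rfl⟩ := hD
  obtain ⟨A', hA'⟩ := hDB
  have hD0' : PowerSeries.constantCoeff D' = 0 := by
    have h := hD0
    rw [PowerSeries.coeff_map] at h
    have h' : ((PowerSeries.coeff 0 D' : R) : ℂ) = ((0 : R) : ℂ) := by simpa using h
    have := Subtype.val_injective h'
    simpa using this
  obtain ⟨U, hU⟩ := PowerSeries.X_dvd_iff.mpr hD0'
  have hU0 : PowerSeries.constantCoeff U = 1 := by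
    have h := hD1
    rw [PowerSeries.coeff_map, hU] at h
    have h1 : PowerSeries.coeff 1 (PowerSeries.X * U) = PowerSeries.coeff 0 U := by
      simp
    rw [h1] at h
    have h' : ((PowerSeries.coeff 0 U : R) : ℂ) = ((1 : R) : ℂ) := by simpa using h
    have := Subtype.val_injective h'
    simpa using this
  have hUu : IsUnit U := by
    rw [PowerSeries.isUnit_iff_constantCoeff, hU0]
    exact isUnit_one
  obtain ⟨u, rfl⟩ := hUu
  have hA0 : PowerSeries.constantCoeff A' = 0 := by
    have h : PowerSeries.coeff 0 (PowerSeries.map R.subtype A') = 0 := by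
      rw [hA', PowerSeries.coeff_mul]
      simp only [Finset.Nat.antidiagonal_zero, Finset.sum_singleton, hD0, zero_mul]
    rw [PowerSeries.coeff_map] at h
    have h' : ((PowerSeries.coeff 0 A' : R) : ℂ) = ((0 : R) : ℂ) := by simpa using h
    have := Subtype.val_injective h'
    simpa using this
  obtain ⟨A'', hA''⟩ := PowerSeries.X_dvd_iff.mpr hA0
  refine ⟨A'' * ((u⁻¹ : (PowerSeries R)ˣ) : PowerSeries R), ?_⟩
  have hDne : PowerSeries.map R.subtype D' ≠ 0 := by
    intro h
    rw [h] at hD1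
    simp at hD1
  apply mul_left_cancel₀ hDne
  rw [← hA', ← map_mul, hU, hA'']
  congr 1
  have : (u : PowerSeries R) * ((u⁻¹ : (PowerSeries R)ˣ) : PowerSeries R) = 1 := u.mul_inv
  calc PowerSeries.X * (u : PowerSeries R) * (A'' * ((u⁻¹ : (PowerSeries R)ˣ) : PowerSeries R))
      = PowerSeries.X * A'' *
          ((u : PowerSeries R) * ((u⁻¹ : (PowerSeries R)ˣ) : PowerSeries R)) := by ring
    _ = PowerSeries.X * A'' := by rw [this, mul_one]

/-! ### The `q`-expansions of `E₄`, `E₆`, `Δ` -/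

theorem qE4_coeff (m : ℕ) : (qExpansion 1 E₄).coeff m =
    if m = 0 then 1 else 240 * ((ArithmeticFunction.sigma 3 m : ℕ) : ℂ) := by
  rw [E_qExpansion_coeff _ ⟨2, rfl⟩, show bernoulli 4 = -1 / 30 by decide +kernel]
  split_ifs
  · rfl
  · norm_num

theorem qE6_coeff (m : ℕ) : (qExpansion 1 E₆).coeff m =
    if m = 0 then 1 else -504 * ((ArithmeticFunction.sigma 5 m : ℕ) : ℂ) := by
  rw [E_qExpansion_coeff _ ⟨3, rfl⟩, show bernoulli 6 = 1 / 42 by decide +kernel]
  split_ifs
  · rfl
  · norm_num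

theorem qE4_mem (R : Subring ℂ) : qExpansion 1 E₄ ∈ psR R := by
  rw [mem_psR]
  intro m
  rw [qE4_coeff]
  split_ifs
  · exact R.one_mem
  · exact R.mul_mem (by exact_mod_cast natCast_mem R 240) (natCast_mem R _)

theorem qE6_mem (R : Subring ℂ) : qExpansion 1 E₆ ∈ psR R := by
  rw [mem_psR]
  intro m
  rw [qE6_coeff]
  split_ifs
  · exact R.one_mem
  · exact R.mul_mem (by exact_mod_cast intCast_mem R (-504)) (natCast_mem R _)

/-- `E₄³ - E₆²` as a form of weight 12. -/
def e43e62 : ModularForm 𝒮ℒ 12 :=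
  ModularForm.mcast (by decide) (E₄.pow 3) - ModularForm.mcast (by decide) (E₆.pow 2)

theorem qExpansion_e43e62 :
    qExpansion 1 e43e62 = qExpansion 1 E₄ ^ 3 - qExpansion 1 E₆ ^ 2 := by
  simp only [e43e62, FunLike.coe_sub, coe_mcast,
    ModularForm.qExpansion_sub one_pos one_mem_strictPeriods_SL,
    ModularForm.qExpansion_pow one_pos one_mem_strictPeriods_SL]

theorem qDelta_eq : qExpansion 1 discriminant =
    (1 / 1728 : ℂ) • (qExpansion 1 E₄ ^ 3 - qExpansion 1 E₆ ^ 2) := by
  have h : (discriminant : ℍ → ℂ) = (1 / 1728 : ℂ) • ⇑e43e62 := by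
    funext z
    have hz := discriminant_eq_E₄_cube_sub_E₆_sq z
    simp only [e43e62, FunLike.coe_sub, coe_mcast, coe_pow, Pi.smul_apply, Pi.sub_apply,
      Pi.pow_apply, smul_eq_mul]
    rw [hz]
    ring
  rw [h, ModularForm.qExpansion_smul one_pos one_mem_strictPeriods_SL, qExpansion_e43e62]

theorem inv_1728_mem (R : Subring ℂ) (h2 : (2 : ℂ)⁻¹ ∈ R) (h3 : (3 : ℂ)⁻¹ ∈ R) :
    (1 / 1728 : ℂ) ∈ R := by
  have : (1 / 1728 : ℂ) = (2 : ℂ)⁻¹ ^ 6 * (3 : ℂ)⁻¹ ^ 3 := by norm_num
  rw [this]
  exact R.mul_mem (R.pow_mem h2 6) (R.pow_mem h3 3)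

theorem qDelta_mem (R : Subring ℂ) (h2 : (2 : ℂ)⁻¹ ∈ R) (h3 : (3 : ℂ)⁻¹ ∈ R) :
    qExpansion 1 discriminant ∈ psR R := by
  rw [qDelta_eq]
  exact smul_mem_psR (inv_1728_mem R h2 h3)
    (Subring.sub_mem _ (Subring.pow_mem _ (qE4_mem R) 3) (Subring.pow_mem _ (qE6_mem R) 2))

theorem qDelta_coeff_zero : (qExpansion 1 discriminant).coeff 0 = 0 := by
  have h := discriminant_qExpansion_order
  exact PowerSeries.coeff_of_lt_order 0 (by rw [h]; exact_mod_cast zero_lt_one)

/-! ### The structure theorem -/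

theorem exists_four_six (n : ℕ) (hev : Even n) (hn2 : n ≠ 2) : ∃ x y : ℕ, 4 * x + 6 * y = n := by
  obtain ⟨m, rfl⟩ := hev
  rcases Nat.even_or_odd m with ⟨t, rfl⟩ | ⟨t, rfl⟩
  · exact ⟨t, 0, by omega⟩
  · have ht : 1 ≤ t := by
      rcases Nat.eq_zero_or_pos t with h | h
      · subst h; exact absurd rfl hn2
      · exact h
    exact ⟨t - 1, 1, by omega⟩

theorem wh_X0 (R : Subring ℂ) :
    MvPolynomial.IsWeightedHomogeneous ![4, 6] (MvPolynomial.X 0 : MvPolynomial (Fin 2) R) 4 :=
  MvPolynomial.isWeightedHomogeneous_X R ![4, 6] 0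

theorem wh_X1 (R : Subring ℂ) :
    MvPolynomial.IsWeightedHomogeneous ![4, 6] (MvPolynomial.X 1 : MvPolynomial (Fin 2) R) 6 :=
  MvPolynomial.isWeightedHomogeneous_X R ![4, 6] 1

theorem wh_disc (R : Subring ℂ) :
    MvPolynomial.IsWeightedHomogeneous ![4, 6]
      ((MvPolynomial.X 0 : MvPolynomial (Fin 2) R) ^ 3 - MvPolynomial.X 1 ^ 2) 12 := by
  have h1 := (wh_X0 R).pow 3
  have h2 := (wh_X1 R).pow 2
  exact h1.sub h2

theorem wh_mono (R : Subring ℂ) (x y : ℕ) :
    MvPolynomial.IsWeightedHomogeneous ![4, 6]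
      ((MvPolynomial.X 0 : MvPolynomial (Fin 2) R) ^ x * MvPolynomial.X 1 ^ y)
      (4 * x + 6 * y) := by
  have h := ((wh_X0 R).pow x).mul ((wh_X1 R).pow y)
  have e : x • 4 + y • 6 = 4 * x + 6 * y := by simp [mul_comm]
  rw [e] at h
  exact h

/-- **[POLY]**: a level-one modular form of weight `n` with `q`-expansion in `R⟦q⟧`
(`1/2, 1/3 ∈ R`) is an isobaric polynomial of weight `n` in `E₄`, `E₆` with coefficients
in `R`. -/
theorem poly_nat (R : Subring ℂ) (h2 : (2 : ℂ)⁻¹ ∈ R) (h3 : (3 : ℂ)⁻¹ ∈ R) :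
    ∀ (n : ℕ) (f : ModularForm 𝒮ℒ (n : ℤ)), qExpansion 1 f ∈ psR R →
      ∃ P : MvPolynomial (Fin 2) R, MvPolynomial.IsWeightedHomogeneous ![4, 6] P n ∧
        MvPolynomial.aeval ![qExpansion 1 E₄, qExpansion 1 E₆] (MvPolynomial.map R.subtype P) =
          qExpansion 1 f := by
  intro n
  induction n using Nat.strong_induction_on with | _ n ih =>
  intro f hf
  have hzero : ∀ g : ModularForm 𝒮ℒ (n : ℤ), g = 0 →
      ∃ P : MvPolynomial (Fin 2) R, MvPolynomial.IsWeightedHomogeneous ![4, 6] P n ∧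
        MvPolynomial.aeval ![qExpansion 1 E₄, qExpansion 1 E₆] (MvPolynomial.map R.subtype P) =
          qExpansion 1 g := by
    intro g hg
    subst hg
    refine ⟨0, MvPolynomial.isWeightedHomogeneous_zero _ _ _, ?_⟩
    rw [map_zero, map_zero]
    exact (qExpansion_zero 1).symm
  rcases Nat.even_or_odd n with hev | hodd
  swap
  · exact hzero f (levelOne_odd_weight_eq_zero (by exact_mod_cast hodd) f)
  by_cases hn2 : n = 2
  · subst hn2
    exact hzero f (rank_zero_iff_forall_zero.mp levelOne_weight_two_rank_zero f)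
  obtain ⟨x, y, hxy⟩ := exists_four_six n hev hn2
  -- the monomial `E₄^x E₆^y`
  have hw : (x : ℤ) * 4 + (y : ℤ) * 6 = (n : ℤ) := by
    rw [← hxy]; push_cast; ring
  set g₀ : ModularForm 𝒮ℒ (n : ℤ) := ModularForm.mcast hw ((E₄.pow x).mul (E₆.pow y)) with hg₀def
  have hg₀ : qExpansion 1 g₀ = qExpansion 1 E₄ ^ x * qExpansion 1 E₆ ^ y := by
    rw [hg₀def, ModularForm.qExpansion_mcast,
      ModularForm.qExpansion_mul one_pos one_mem_strictPeriods_SL,
      ModularForm.qExpansion_pow one_pos one_mem_strictPeriods_SL,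
      ModularForm.qExpansion_pow one_pos one_mem_strictPeriods_SL]
  have hg₀mem : qExpansion 1 g₀ ∈ psR R := by
    rw [hg₀]
    exact Subring.mul_mem _ (Subring.pow_mem _ (qE4_mem R) x) (Subring.pow_mem _ (qE6_mem R) y)
  have hg₀0 : (qExpansion 1 g₀).coeff 0 = 1 := by
    rw [hg₀]
    simp only [PowerSeries.coeff_zero_eq_constantCoeff, map_mul, map_pow]
    have e4 : PowerSeries.constantCoeff (qExpansion 1 E₄) = 1 := by
      have := qE4_coeff 0
      simpa using this
    have e6 : PowerSeries.constantCoeff (qExpansion 1 E₆) = 1 := by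
      have := qE6_coeff 0
      simpa using this
    rw [e4, e6]; simp
  set a₀ : ℂ := (qExpansion 1 f).coeff 0 with ha₀def
  have ha₀ : a₀ ∈ R := (mem_psR.mp hf) 0
  set f' : ModularForm 𝒮ℒ (n : ℤ) := f - a₀ • g₀ with hf'def
  have hf' : qExpansion 1 f' = qExpansion 1 f - a₀ • qExpansion 1 g₀ := by
    rw [hf'def, FunLike.coe_sub, ModularForm.qExpansion_sub one_pos one_mem_strictPeriods_SL,
      FunLike.coe_smul, ModularForm.qExpansion_smul one_pos one_mem_strictPeriods_SL]
  have hf'mem : qExpansion 1 f' ∈ psR R := by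
    rw [hf']
    exact Subring.sub_mem _ hf (smul_mem_psR ha₀ hg₀mem)
  have hf'0 : (qExpansion 1 f').coeff 0 = 0 := by
    rw [hf', map_sub, PowerSeries.coeff_smul, hg₀0]
    simp [ha₀def]
  have hmul := qExpansion_eq_qExpansion_discriminant_mul f' hf'0
  set h := CuspForm.discriminantEquiv (toCuspForm f' hf'0) with hhdef
  have hh : qExpansion 1 h ∈ psR R :=
    psR_of_mul (qDelta_mem R h2 h3) qDelta_coeff_zero discriminant_qExpansion_coeff_one
      (hmul ▸ hf'mem)
  obtain ⟨P', hP'1, hP'2⟩ : ∃ P' : MvPolynomial (Fin 2) R,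
      MvPolynomial.IsWeightedHomogeneous ![4, 6]
        (((MvPolynomial.X 0 : MvPolynomial (Fin 2) R) ^ 3 - MvPolynomial.X 1 ^ 2) * P') n ∧
      MvPolynomial.aeval ![qExpansion 1 E₄, qExpansion 1 E₆] (MvPolynomial.map R.subtype P') =
        qExpansion 1 h := by
    rcases lt_or_ge n 12 with hlt | hge
    · have h0 : h = 0 :=
        rank_zero_iff_forall_zero.mp (levelOne_neg_weight_rank_zero (by omega)) h
      refine ⟨0, ?_, ?_⟩
      · rw [mul_zero]
        exact MvPolynomial.isWeightedHomogeneous_zero _ _ _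
      · rw [h0, map_zero, map_zero]
        exact (qExpansion_zero 1).symm
    · have hw' : (n : ℤ) - 12 = ((n - 12 : ℕ) : ℤ) := by omega
      obtain ⟨P', h1, h2'⟩ := ih (n - 12) (by omega) (ModularForm.mcast hw' h)
        (by rw [ModularForm.qExpansion_mcast]; exact hh)
      refine ⟨P', ?_, ?_⟩
      · have := (wh_disc R).mul h1
        have e : 12 + (n - 12) = n := by omega
        rw [e] at this
        exact this
      · rw [h2', ModularForm.qExpansion_mcast]
  refine ⟨MvPolynomial.C ⟨a₀, ha₀⟩ * (MvPolynomial.X 0 ^ x * MvPolynomial.X 1 ^ y) +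
      MvPolynomial.C ⟨1 / 1728, inv_1728_mem R h2 h3⟩ *
        ((MvPolynomial.X 0 ^ 3 - MvPolynomial.X 1 ^ 2) * P'), ?_, ?_⟩
  · refine MvPolynomial.IsWeightedHomogeneous.add ?_ ?_
    · have := (MvPolynomial.isWeightedHomogeneous_C ![4, 6] (⟨a₀, ha₀⟩ : R)).mul (wh_mono R x y)
      rw [zero_add, hxy] at this
      exact this
    · have := (MvPolynomial.isWeightedHomogeneous_C ![4, 6]
        (⟨1 / 1728, inv_1728_mem R h2 h3⟩ : R)).mul hP'1
      rw [zero_add] at this
      exact this
  · have hsplit : qExpansion 1 f = a₀ • qExpansion 1 g₀ + qExpansion 1 f' := by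
      rw [hf']; ring
    rw [hsplit, hmul, ← hP'2, hg₀, qDelta_eq]
    simp only [map_add, map_mul, map_sub, map_pow, MvPolynomial.map_C, MvPolynomial.map_X,
      MvPolynomial.aeval_C, MvPolynomial.aeval_X, Matrix.cons_val_zero, Matrix.cons_val_one,
      Subring.coe_subtype, Algebra.smul_def]
    ring

/-- **[POLY]**, integer weights: for negative weight the form is zero and `P = 0`. -/
theorem poly_int (R : Subring ℂ) (h2 : (2 : ℂ)⁻¹ ∈ R) (h3 : (3 : ℂ)⁻¹ ∈ R) (w : ℤ)
    (f : ModularForm 𝒮ℒ w) (hf : ∀ n, (qExpansion 1 f).coeff n ∈ R) :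
    ∃ P : MvPolynomial (Fin 2) R, MvPolynomial.IsWeightedHomogeneous ![4, 6] P w.toNat ∧
      (w < 0 → f = 0) ∧
      MvPolynomial.aeval ![qExpansion 1 E₄, qExpansion 1 E₆] (MvPolynomial.map R.subtype P) =
        qExpansion 1 f := by
  rcases lt_or_ge w 0 with hneg | hnn
  · have h0 : f = 0 := rank_zero_iff_forall_zero.mp (levelOne_neg_weight_rank_zero hneg) f
    refine ⟨0, MvPolynomial.isWeightedHomogeneous_zero _ _ _, fun _ => h0, ?_⟩
    rw [h0, map_zero, map_zero]
    exact (qExpansion_zero 1).symm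
  · have hw : w = ((w.toNat : ℕ) : ℤ) := (Int.toNat_of_nonneg hnn).symm
    obtain ⟨P, h1, h2'⟩ := poly_nat R h2 h3 w.toNat (ModularForm.mcast hw f)
      (by rw [ModularForm.qExpansion_mcast]; exact mem_psR.mpr hf)
    refine ⟨P, h1, fun h => absurd h (not_lt.mpr hnn), ?_⟩
    rw [h2', ModularForm.qExpansion_mcast]

/-- Weighted homogeneity is preserved by base change of the coefficients. -/
theorem isWeightedHomogeneous_map {A B : Type*} [CommSemiring A] [CommSemiring B]
    (φ : A →+* B) {σ : Type*} (wt : σ → ℕ) {P : MvPolynomial σ A} {n : ℕ}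
    (hP : MvPolynomial.IsWeightedHomogeneous wt P n) :
    MvPolynomial.IsWeightedHomogeneous wt (MvPolynomial.map φ P) n := by
  intro d hd
  rw [MvPolynomial.coeff_map] at hd
  apply hP
  intro h
  rw [h, map_zero] at hd
  exact hd rfl

/-- Evaluation at power series commutes with base change of the coefficients. -/
theorem map_aeval_powerSeries {A B : Type*} [CommRing A] [CommRing B] (φ : A →+* B)
    {σ : Type*} (g : σ → PowerSeries A) (P : MvPolynomial σ A) :
    PowerSeries.map φ (MvPolynomial.aeval g P) =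
      MvPolynomial.aeval (fun i => PowerSeries.map φ (g i)) (MvPolynomial.map φ P) := by
  have h : (PowerSeries.map φ).comp (MvPolynomial.aeval g : MvPolynomial σ A →ₐ[A] _).toRingHom =
      ((MvPolynomial.aeval (fun i => PowerSeries.map φ (g i)) :
          MvPolynomial σ B →ₐ[B] _).toRingHom).comp (MvPolynomial.map φ) := by
    apply MvPolynomial.ringHom_ext
    · intro r
      simp
    · intro i
      simp
  exact congrArg (fun F : MvPolynomial σ A →+* PowerSeries B => F P) h

end Fermat.Agent.S16x.Swd.H29
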