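import Mathlib

/-!
# S16 / [SWD] / [VS] : von Staudt for `E_{l-1}`

For a prime `l ≥ 5` the normalised Eisenstein series `E_{l-1}` has `l`-integral
`q`-expansion congruent to `1` modulo `l`.  Everything is stated without any
integrality vocabulary: the non-constant coefficients are `l * (a / b) * σ_{l-2}(m)`
with integers `a`, `b`, `b` prime to `l`.
-/

namespace Fermat.Agent.S16x.Swd.H7

open Finset

/-- Clearing denominators in a sum of inverses of primes different from `l`. -/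
lemma h7_sum_inv_primes (l : ℕ) (hl : l.Prime) (s : Finset ℕ)
    (hs : ∀ q ∈ s, q.Prime ∧ q ≠ l) :
    ∃ D : ℕ, ¬ l ∣ D ∧ ∃ N : ℤ, (D : ℚ) * ∑ q ∈ s, (1 : ℚ) / q = N := by
  induction s using Finset.induction_on with
  | empty =>
    refine ⟨1, ?_, 0, by simp⟩
    exact fun h => hl.one_lt.ne' (Nat.dvd_one.mp h)
  | insert a s ha ih =>
    obtain ⟨D, hD, N, hN⟩ := ih (fun q hq => hs q (Finset.mem_insert_of_mem hq))
    obtain ⟨hap, hal⟩ := hs a (Finset.mem_insert_self a s)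
    refine ⟨a * D, ?_, D + a * N, ?_⟩
    · intro h
      rcases (Nat.Prime.dvd_mul hl).mp h with h1 | h1
      · exact hal ((Nat.prime_dvd_prime_iff_eq hl hap).mp h1).symm
      · exact hD h1
    · rw [Finset.sum_insert ha]
      have ha0 : (a : ℚ) ≠ 0 := by exact_mod_cast hap.ne_zero
      push_cast
      rw [← hN]
      field_simp

/-- **von Staudt** at the prime `l`: `l * B_{l-1} = c / D` with `c ≡ -D mod l`, `l ∤ D`. -/
theorem h7_vs_core (l : ℕ) [Fact l.Prime] (hl : 3 ≤ l) :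
    ∃ (D : ℕ) (M : ℤ), ¬ l ∣ D ∧
      (l : ℚ) * bernoulli (l - 1) * D = (l : ℚ) * M - D := by
  have hlp : l.Prime := Fact.out
  have hodd : Odd l := hlp.odd_of_ne_two (by omega)
  obtain ⟨k, hk⟩ : ∃ k, l - 1 = 2 * k := by
    obtain ⟨j, hj⟩ := hodd
    exact ⟨j, by omega⟩
  obtain ⟨T, hT⟩ := Bernoulli.vonStaudt_clausen k
  set s : Finset ℕ := (range (2 * k + 2)).filter (fun p => p.Prime ∧ (p - 1) ∣ 2 * k) with hs
  have hl_mem : l ∈ s := by
    rw [hs, Finset.mem_filter, Finset.mem_range]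
    refine ⟨by omega, hlp, ?_⟩
    rw [← hk]
  have hsplit : ∑ p ∈ s, (1 : ℚ) / p = 1 / l + ∑ p ∈ s.erase l, (1 : ℚ) / p :=
    (Finset.add_sum_erase s (fun p => (1 : ℚ) / p) hl_mem).symm
  obtain ⟨D, hD, N, hN⟩ := h7_sum_inv_primes l hlp (s.erase l) (by
    intro q hq
    rw [Finset.mem_erase] at hq
    refine ⟨?_, hq.1⟩
    have := hq.2
    rw [hs, Finset.mem_filter] at this
    exact this.2.1)
  refine ⟨D, D * T - N, hD, ?_⟩
  have hl0 : (l : ℚ) ≠ 0 := by exact_mod_cast hlp.ne_zero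
  have hB : bernoulli (l - 1) = T - 1 / l - ∑ p ∈ s.erase l, (1 : ℚ) / p := by
    rw [hk]
    have := hT
    rw [hsplit] at this
    linarith
  rw [hB]
  push_cast
  have hN'' : (∑ p ∈ s.erase l, (1 : ℚ) / p) * D = N := by
    rw [mul_comm]; exact hN
  generalize (∑ p ∈ s.erase l, (1 : ℚ) / p) = sm at hN''
  rw [← hN'']
  field_simp
  ring

/-- The Bernoulli form of [VS]: `-(2 (l-1) / B_{l-1}) = l * a / b` with `l ∤ b`. -/
theorem h7_vs_bernoulli (l : ℕ) [Fact l.Prime] (hl : 3 ≤ l) :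
    ∃ a b : ℤ, ¬ (l : ℤ) ∣ b ∧
      -(2 * ((l - 1 : ℕ) : ℚ) / bernoulli (l - 1)) = (l : ℚ) * a / b := by
  have hlp : l.Prime := Fact.out
  obtain ⟨D, M, hD, hM⟩ := h7_vs_core l hl
  have hl0 : (l : ℚ) ≠ 0 := by exact_mod_cast hlp.ne_zero
  have hb : ¬ (l : ℤ) ∣ ((l : ℤ) * M - D) := by
    intro h
    have h2 : (l : ℤ) ∣ (D : ℤ) := by
      have h3 : (l : ℤ) ∣ (l : ℤ) * M := dvd_mul_right _ _
      have := dvd_sub h3 h
      simpa using this
    exact hD (by exact_mod_cast h2)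
  have hc0 : ((l : ℤ) * M - D : ℤ) ≠ 0 := fun h => hb (h ▸ dvd_zero _)
  have hc0' : ((l : ℚ) * M - D) ≠ 0 := by exact_mod_cast hc0
  have hD0 : (D : ℚ) ≠ 0 := by
    intro h
    have : D = 0 := by exact_mod_cast h
    exact hD (this ▸ dvd_zero _)
  have hB0 : bernoulli (l - 1) ≠ 0 := by
    intro h
    rw [h] at hM
    simp at hM
    exact hc0' hM.symm
  refine ⟨-(2 * ((l - 1 : ℕ) : ℤ) * D), (l : ℤ) * M - D, hb, ?_⟩
  have hBeq : bernoulli (l - 1) = ((l : ℚ) * M - D) / (l * D) := by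
    field_simp
    linarith
  rw [hBeq]
  push_cast
  field_simp

open ModularForm ModularFormClass EisensteinSeries ArithmeticFunction UpperHalfPlane in
/-- **[VS]** in the shape consumed by [SWD]: for a prime `l ≥ 5`,
`E_{l-1} = 1 + l * (a / b) * ∑ σ_{l-2}(m) q^m` with integers `a`, `b`, `l ∤ b`. -/
theorem h7_vs_E (l : ℕ) [Fact l.Prime] (hl : 5 ≤ l) (hk : 3 ≤ l - 1) :
    ∃ a b : ℤ, ¬ (l : ℤ) ∣ b ∧ (qExpansion 1 (E hk)).coeff 0 = 1 ∧
      ∀ m : ℕ, 1 ≤ m →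
        (qExpansion 1 (E hk)).coeff m = (l : ℂ) * a / b * (sigma (l - 2) m : ℂ) := by
  have hlp : l.Prime := Fact.out
  have hodd : Odd l := hlp.odd_of_ne_two (by omega)
  have heven : Even (l - 1) := by
    obtain ⟨j, hj⟩ := hodd
    exact ⟨j, by omega⟩
  obtain ⟨a, b, hb, hab⟩ := h7_vs_bernoulli l (by omega)
  refine ⟨a, b, hb, E_qExpansion_coeff_zero hk heven, ?_⟩
  intro m hm
  rw [E_qExpansion_coeff hk heven m, if_neg (by omega)]
  have hc : (-(2 * ((l - 1 : ℕ) : ℂ) / ((bernoulli (l - 1) : ℚ) : ℂ))) = (l : ℂ) * a / b := by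
    have := congrArg (fun x : ℚ => (x : ℂ)) hab
    push_cast at this
    exact this
  rw [show l - 1 - 1 = l - 2 by omega]
  rw [← hc]

end Fermat.Agent.S16x.Swd.H7
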