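import Mathlib
import Fermat.Agent.S16x.Swd.H29_Poly
import Fermat.Agent.S16x.Swd.H7_VS

/-!
# S16, package [SWD], the assembly (helper29)

**(SWD)**: a level-one modular form `f` of weight `w` whose `q`-expansion has coefficients in a
subring `R ⊆ ℂ` and reduces, under a ring homomorphism `φ : R → k` to a field of characteristic
`l ≥ 5`, to a nonzero constant, has `(l - 1) ∣ w`.

* `StRam`  : the leaf [RAM] (Ramanujan's identities for the integral series), as consumed here;
* `StCore` : the leaf [ALG] (the algebraic core over a field of characteristic `l`);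
* `exists_extend` : extension of `φ : R → k` to `R[1/s]` (`φ s ≠ 0`);
* `swd_hom_of : StRam → StCore → ` (SWD), for an ARBITRARY subring `R` of `ℂ`.
-/

set_option autoImplicit false

open UpperHalfPlane ModularForm SlashInvariantForm SlashInvariantFormClass ModularFormClass
  CuspFormClass MatrixGroups EisensteinSeries

noncomputable section

namespace Fermat.Agent.S16x.Swd.H29

universe u

/-- The leaf [RAM]: integral power series `P, Q, R` with `Q`, `R` the `q`-expansions of `E₄`,
`E₆`, satisfying Ramanujan's differential equations (`θ = q d/dq`). -/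
def StRam : Prop :=
  ∃ PZ QZ RZ : PowerSeries ℤ,
    PowerSeries.constantCoeff PZ = 1 ∧
    PowerSeries.map (Int.castRingHom ℂ) QZ = qExpansion 1 E₄ ∧
    PowerSeries.map (Int.castRingHom ℂ) RZ = qExpansion 1 E₆ ∧
    12 * (PowerSeries.X * PowerSeries.derivative ℤ PZ) = PZ ^ 2 - QZ ∧
    3 * (PowerSeries.X * PowerSeries.derivative ℤ QZ) = PZ * QZ - RZ ∧
    2 * (PowerSeries.X * PowerSeries.derivative ℤ RZ) = PZ * RZ - QZ ^ 2

/-- The leaf [ALG]: the algebraic core of (SWD) over a field of characteristic `l ≥ 5`. -/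
def StCore : Prop :=
  ∀ (k : Type u) [Field k] (l : ℕ) [Fact l.Prime] [CharP k l], 5 ≤ l →
    ∀ (Ps Qs Rs : PowerSeries k), PowerSeries.constantCoeff Ps = 1 →
    PowerSeries.constantCoeff Qs = 1 → PowerSeries.constantCoeff Rs = 1 →
    PowerSeries.coeff 1 (Qs ^ 3 - Rs ^ 2) ≠ 0 →
    12 * (PowerSeries.X * PowerSeries.derivative k Ps) = Ps ^ 2 - Qs →
    3 * (PowerSeries.X * PowerSeries.derivative k Qs) = Ps * Qs - Rs →
    2 * (PowerSeries.X * PowerSeries.derivative k Rs) = Ps * Rs - Qs ^ 2 →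
    ∀ (A : MvPolynomial (Fin 2) k), MvPolynomial.IsWeightedHomogeneous ![4, 6] A (l - 1) →
    MvPolynomial.aeval ![Qs, Rs] A = 1 →
    ∀ (f : MvPolynomial (Fin 2) k) (w : ℕ), MvPolynomial.IsWeightedHomogeneous ![4, 6] f w →
    ∀ c : k, c ≠ 0 → MvPolynomial.aeval ![Qs, Rs] f = PowerSeries.C c → (l - 1) ∣ w

/-! ### Extension of the reduction map -/

/-- Extension of a ring homomorphism `φ : R → k` (`R ⊆ ℂ`, `k` a field) to `R[1/s]`,
`φ s ≠ 0`. -/
theorem exists_extend {k : Type*} [Field k] (R : Subring ℂ) (φ : R →+* k) (s : R)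
    (hs : φ s ≠ 0) :
    ∃ (R' : Subring ℂ) (hle : R ≤ R') (φ' : R' →+* k), ((s : ℂ))⁻¹ ∈ R' ∧
      ∀ x : R, φ' (Subring.inclusion hle x) = φ x := by
  have hs0 : (s : ℂ) ≠ 0 := by
    intro h
    apply hs
    have : s = 0 := Subtype.ext h
    rw [this, map_zero]
  have hu : IsUnit (R.subtype s) := isUnit_iff_ne_zero.mpr hs0
  have hu' : IsUnit (φ s) := isUnit_iff_ne_zero.mpr hs
  let j : Localization.Away s →+* ℂ := IsLocalization.Away.lift s hu
  have hjalg : ∀ a : R, j (algebraMap R (Localization.Away s) a) = (a : ℂ) := fun a =>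
    IsLocalization.Away.lift_eq s hu a
  have hj : Function.Injective j := by
    rw [injective_iff_map_eq_zero]
    intro x hx
    obtain ⟨n, a, hxa⟩ := IsLocalization.Away.surj s x
    have h0 : j (algebraMap R (Localization.Away s) a) = 0 := by
      rw [← hxa, map_mul, hx, zero_mul]
    rw [hjalg] at h0
    have ha : a = 0 := Subtype.ext h0
    have hunit : IsUnit (algebraMap R (Localization.Away s) s ^ n) :=
      IsLocalization.Away.algebraMap_pow_isUnit s n
    rw [ha, map_zero] at hxa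
    exact (hunit.mul_left_eq_zero).mp hxa
  have hle : R ≤ j.range := by
    intro x hx
    exact ⟨algebraMap R (Localization.Away s) ⟨x, hx⟩, hjalg ⟨x, hx⟩⟩
  let e : Localization.Away s ≃+* j.range :=
    RingEquiv.ofBijective j.rangeRestrict
      ⟨fun a b h => hj (congrArg Subtype.val h), j.rangeRestrict_surjective⟩
  refine ⟨j.range, hle,
    (IsLocalization.Away.lift s hu' : Localization.Away s →+* k).comp (e.symm : j.range →+* _),
    ?_, ?_⟩
  · refine ⟨IsLocalization.Away.invSelf s, ?_⟩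
    have h1 : j (algebraMap R (Localization.Away s) s) * j (IsLocalization.Away.invSelf s) = 1 := by
      rw [← map_mul, IsLocalization.Away.mul_invSelf, map_one]
    rw [hjalg] at h1
    exact (eq_inv_of_mul_eq_one_right h1)
  · intro x
    have hx : e.symm (Subring.inclusion hle x) = algebraMap R (Localization.Away s) x := by
      rw [RingEquiv.symm_apply_eq]
      apply Subtype.ext
      exact (hjalg x).symm
    simp only [RingHom.coe_comp, RingHom.coe_coe, Function.comp_apply]
    rw [hx]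
    exact IsLocalization.Away.lift_eq s hu' x

/-! ### Reduction of power series identities -/

theorem map_derivative {A B : Type*} [CommRing A] [CommRing B] (φ : A →+* B)
    (F : PowerSeries A) :
    PowerSeries.map φ (PowerSeries.derivative A F) =
      PowerSeries.derivative B (PowerSeries.map φ F) := by
  ext n
  simp [PowerSeries.coeff_derivative, PowerSeries.coeff_map]

theorem map_theta {A B : Type*} [CommRing A] [CommRing B] (φ : A →+* B)
    (F : PowerSeries A) :
    PowerSeries.map φ (PowerSeries.X * PowerSeries.derivative A F) =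
      PowerSeries.X * PowerSeries.derivative B (PowerSeries.map φ F) := by
  rw [map_mul, PowerSeries.map_X, map_derivative]

/-- Reduction of a polynomial identity between `q`-expansions. -/
theorem reduce_aeval (R : Subring ℂ) {k : Type*} [Field k] (φ : R →+* k)
    (QZ RZ : PowerSeries ℤ)
    (hQ : PowerSeries.map (Int.castRingHom ℂ) QZ = qExpansion 1 E₄)
    (hR : PowerSeries.map (Int.castRingHom ℂ) RZ = qExpansion 1 E₆)
    (P : MvPolynomial (Fin 2) R) (F : PowerSeries R)
    (h : MvPolynomial.aeval ![qExpansion 1 E₄, qExpansion 1 E₆] (MvPolynomial.map R.subtype P) =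
      PowerSeries.map R.subtype F) :
    MvPolynomial.aeval
        ![PowerSeries.map (Int.castRingHom k) QZ, PowerSeries.map (Int.castRingHom k) RZ]
        (MvPolynomial.map φ P) = PowerSeries.map φ F := by
  have hc : R.subtype.comp (Int.castRingHom R) = Int.castRingHom ℂ := RingHom.ext_int _ _
  have hk : φ.comp (Int.castRingHom R) = Int.castRingHom k := RingHom.ext_int _ _
  have e1 : (fun i => PowerSeries.map R.subtype
      (![PowerSeries.map (Int.castRingHom R) QZ, PowerSeries.map (Int.castRingHom R) RZ] i)) =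
      ![qExpansion 1 E₄, qExpansion 1 E₆] := by
    funext i
    fin_cases i
    · change PowerSeries.map R.subtype (PowerSeries.map (Int.castRingHom R) QZ) = _
      rw [← RingHom.comp_apply, ← PowerSeries.map_comp, hc, hQ]
      rfl
    · change PowerSeries.map R.subtype (PowerSeries.map (Int.castRingHom R) RZ) = _
      rw [← RingHom.comp_apply, ← PowerSeries.map_comp, hc, hR]
      rfl
  have e2 : (fun i => PowerSeries.map φ
      (![PowerSeries.map (Int.castRingHom R) QZ, PowerSeries.map (Int.castRingHom R) RZ] i)) =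
      ![PowerSeries.map (Int.castRingHom k) QZ, PowerSeries.map (Int.castRingHom k) RZ] := by
    funext i
    fin_cases i
    · change PowerSeries.map φ (PowerSeries.map (Int.castRingHom R) QZ) = _
      rw [← RingHom.comp_apply, ← PowerSeries.map_comp, hk]
      rfl
    · change PowerSeries.map φ (PowerSeries.map (Int.castRingHom R) RZ) = _
      rw [← RingHom.comp_apply, ← PowerSeries.map_comp, hk]
      rfl
  have h1 : PowerSeries.map R.subtype (MvPolynomial.aeval
      ![PowerSeries.map (Int.castRingHom R) QZ, PowerSeries.map (Int.castRingHom R) RZ] P) =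
      PowerSeries.map R.subtype F := by
    rw [map_aeval_powerSeries, e1, h]
  have h2 := map_subtype_injective R h1
  have h3 := congrArg (PowerSeries.map φ) h2
  rw [map_aeval_powerSeries, e2] at h3
  exact h3

/-! ### The assembly -/

theorem coeff_one_disc (QZ RZ : PowerSeries ℤ)
    (hQ : PowerSeries.map (Int.castRingHom ℂ) QZ = qExpansion 1 E₄)
    (hR : PowerSeries.map (Int.castRingHom ℂ) RZ = qExpansion 1 E₆) :
    PowerSeries.coeff 1 (QZ ^ 3 - RZ ^ 2) = 1728 := by
  have h1 : PowerSeries.map (Int.castRingHom ℂ) (QZ ^ 3 - RZ ^ 2) =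
      (1728 : ℂ) • qExpansion 1 discriminant := by
    rw [map_sub, map_pow, map_pow, hQ, hR, qDelta_eq, smul_smul]
    norm_num
  have h2 := congrArg (PowerSeries.coeff 1) h1
  rw [PowerSeries.coeff_map, PowerSeries.coeff_smul, discriminant_qExpansion_coeff_one] at h2
  have h3 : ((PowerSeries.coeff 1 (QZ ^ 3 - RZ ^ 2) : ℤ) : ℂ) = ((1728 : ℤ) : ℂ) := by
    simpa using h2
  exact_mod_cast h3

theorem constantCoeff_of_bridge (QZ : PowerSeries ℤ) (F : PowerSeries ℂ)
    (hQ : PowerSeries.map (Int.castRingHom ℂ) QZ = F) (hF : PowerSeries.coeff 0 F = 1) :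
    PowerSeries.constantCoeff QZ = 1 := by
  have h := congrArg (PowerSeries.coeff 0) hQ
  rw [PowerSeries.coeff_map, hF] at h
  have h3 : ((PowerSeries.coeff 0 QZ : ℤ) : ℂ) = ((1 : ℤ) : ℂ) := by simpa using h
  have h4 : PowerSeries.coeff 0 QZ = 1 := by exact_mod_cast h3
  simpa using h4

theorem ne_zero_1728 (k : Type*) [Field k] (l : ℕ) [Fact l.Prime] [CharP k l] (hl : 5 ≤ l) :
    ((1728 : ℤ) : k) ≠ 0 := by
  have hlp : l.Prime := Fact.out
  rw [Ne, CharP.intCast_eq_zero_iff k l]
  intro h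
  have h1 : l ∣ 1728 := by exact_mod_cast h
  have h2 : (1728 : ℕ) = 2 ^ 6 * 3 ^ 3 := by norm_num
  rw [h2] at h1
  rcases (Nat.Prime.dvd_mul hlp).mp h1 with h | h
  · have := Nat.le_of_dvd (by norm_num) (hlp.dvd_of_dvd_pow h)
    omega
  · have := Nat.le_of_dvd (by norm_num) (hlp.dvd_of_dvd_pow h)
    omega

/-- (SWD) for a subring `R` containing `1/2`, `1/3` over which `E_{l-1} ≡ 1 mod l`. -/
theorem swd_hom_aux (hram : StRam) (hcore : StCore.{u}) (l : ℕ) [Fact l.Prime] (hl : 5 ≤ l)
    (R : Subring ℂ) (h2 : (2 : ℂ)⁻¹ ∈ R) (h3 : (3 : ℂ)⁻¹ ∈ R) (hk : 3 ≤ l - 1)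
    (hE : ∀ m, 1 ≤ m → ∃ r ∈ R, (qExpansion 1 (E hk)).coeff m = (l : ℂ) * r)
    {k : Type u} [Field k] [CharP k l] (φ : R →+* k) (w : ℤ) (f : ModularForm 𝒮ℒ w)
    (hf : ∀ n, (qExpansion 1 f).coeff n ∈ R)
    (hn : ∀ n, 1 ≤ n → φ ⟨(qExpansion 1 f).coeff n, hf n⟩ = 0)
    (h0 : φ ⟨(qExpansion 1 f).coeff 0, hf 0⟩ ≠ 0) : ((l : ℤ) - 1) ∣ w := by
  obtain ⟨PZ, QZ, RZ, hP0, hQb, hRb, hP, hQ, hR⟩ := hram
  have hlp : l.Prime := Fact.out
  have heven : Even (l - 1) := by
    have hodd : Odd l := hlp.odd_of_ne_two (by omega)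
    obtain ⟨j, hj⟩ := hodd
    exact ⟨j, by omega⟩
  -- the weight is nonnegative
  have hwnn : 0 ≤ w := by
    by_contra hneg
    rw [not_le] at hneg
    have hf0 : f = 0 := rank_zero_iff_forall_zero.mp (levelOne_neg_weight_rank_zero hneg) f
    apply h0
    have : (⟨(qExpansion 1 f).coeff 0, hf 0⟩ : R) = 0 := by
      apply Subtype.ext
      change (qExpansion 1 f).coeff 0 = 0
      rw [hf0]
      have : qExpansion 1 (⇑(0 : ModularForm 𝒮ℒ w)) = 0 := qExpansion_zero 1
      rw [this, map_zero]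
    rw [this, map_zero]
  -- the two polynomials
  obtain ⟨Pf, hPf1, -, hPf2⟩ := poly_int R h2 h3 w f hf
  have hEmem : qExpansion 1 (E hk) ∈ psR R := by
    rw [mem_psR]
    intro m
    rcases Nat.eq_zero_or_pos m with rfl | hm
    · rw [E_qExpansion_coeff_zero hk heven]
      exact R.one_mem
    · obtain ⟨r, hr, h⟩ := hE m hm
      rw [h]
      exact R.mul_mem (natCast_mem R l) hr
  obtain ⟨PA, hPA1, hPA2⟩ := poly_nat R h2 h3 (l - 1) (E hk) hEmem
  -- the `q`-expansions as power series over `R`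
  set Ff : PowerSeries R := PowerSeries.mk fun n => ⟨(qExpansion 1 f).coeff n, hf n⟩ with hFfdef
  have hFf : PowerSeries.map R.subtype Ff = qExpansion 1 f := by
    ext n
    simp [hFfdef, PowerSeries.coeff_map]
  set FA : PowerSeries R :=
    PowerSeries.mk fun n => ⟨(qExpansion 1 (E hk)).coeff n, mem_psR.mp hEmem n⟩ with hFAdef
  have hFA : PowerSeries.map R.subtype FA = qExpansion 1 (E hk) := by
    ext n
    simp [hFAdef, PowerSeries.coeff_map]
  have hredf := reduce_aeval R φ QZ RZ hQb hRb Pf Ff (hPf2.trans hFf.symm)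
  have hredA := reduce_aeval R φ QZ RZ hQb hRb PA FA (hPA2.trans hFA.symm)
  have hFfk : PowerSeries.map φ Ff = PowerSeries.C (φ ⟨(qExpansion 1 f).coeff 0, hf 0⟩) := by
    ext n
    rw [PowerSeries.coeff_map, PowerSeries.coeff_C, hFfdef, PowerSeries.coeff_mk]
    split_ifs with h
    · subst h; rfl
    · exact hn n (Nat.pos_of_ne_zero h)
  have hlk : ((l : ℕ) : k) = 0 := CharP.cast_eq_zero k l
  have hFAk : PowerSeries.map φ FA = 1 := by
    ext n
    rw [PowerSeries.coeff_map, PowerSeries.coeff_one, hFAdef, PowerSeries.coeff_mk]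
    split_ifs with h
    · subst h
      have : (⟨(qExpansion 1 (E hk)).coeff 0, mem_psR.mp hEmem 0⟩ : R) = 1 := by
        apply Subtype.ext
        exact E_qExpansion_coeff_zero hk heven
      rw [this, map_one]
    · obtain ⟨r, hr, hm⟩ := hE n (Nat.pos_of_ne_zero h)
      have : (⟨(qExpansion 1 (E hk)).coeff n, mem_psR.mp hEmem n⟩ : R) =
          ((l : ℕ) : R) * ⟨r, hr⟩ := by
        apply Subtype.ext
        change (qExpansion 1 (E hk)).coeff n = _
        rw [hm]
        simp
      rw [this, map_mul, map_natCast, hlk, zero_mul]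
  -- Ramanujan modulo `l`
  have hPk := congrArg (PowerSeries.map (Int.castRingHom k)) hP
  have hQk := congrArg (PowerSeries.map (Int.castRingHom k)) hQ
  have hRk := congrArg (PowerSeries.map (Int.castRingHom k)) hR
  simp only [map_mul, map_sub, map_pow, map_ofNat] at hPk hQk hRk
  rw [← map_mul, map_theta] at hPk hQk hRk
  have hQ0 : PowerSeries.constantCoeff QZ = 1 :=
    constantCoeff_of_bridge QZ _ hQb (by simpa using qE4_coeff 0)
  have hR0 : PowerSeries.constantCoeff RZ = 1 :=
    constantCoeff_of_bridge RZ _ hRb (by simpa using qE6_coeff 0)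
  have hD : PowerSeries.coeff 1 (PowerSeries.map (Int.castRingHom k) QZ ^ 3 -
      PowerSeries.map (Int.castRingHom k) RZ ^ 2) ≠ 0 := by
    rw [← map_pow, ← map_pow, ← map_sub, PowerSeries.coeff_map, coeff_one_disc QZ RZ hQb hRb]
    exact ne_zero_1728 k l hl
  have hdvd : (l - 1) ∣ w.toNat :=
    hcore k l hl (PowerSeries.map (Int.castRingHom k) PZ)
      (PowerSeries.map (Int.castRingHom k) QZ) (PowerSeries.map (Int.castRingHom k) RZ)
      (by rw [← PowerSeries.coeff_zero_eq_constantCoeff_apply, PowerSeries.coeff_map,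
            PowerSeries.coeff_zero_eq_constantCoeff_apply, hP0, map_one])
      (by rw [← PowerSeries.coeff_zero_eq_constantCoeff_apply, PowerSeries.coeff_map,
            PowerSeries.coeff_zero_eq_constantCoeff_apply, hQ0, map_one])
      (by rw [← PowerSeries.coeff_zero_eq_constantCoeff_apply, PowerSeries.coeff_map,
            PowerSeries.coeff_zero_eq_constantCoeff_apply, hR0, map_one])
      hD hPk hQk hRk
      (MvPolynomial.map φ PA) (isWeightedHomogeneous_map φ _ hPA1) (hredA.trans hFAk)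
      (MvPolynomial.map φ Pf) w.toNat (isWeightedHomogeneous_map φ _ hPf1) _ h0
      (hredf.trans hFfk)
  have h1 : ((l : ℤ) - 1) = ((l - 1 : ℕ) : ℤ) := by
    have : 1 ≤ l := by omega
    omega
  have h2' : w = ((w.toNat : ℕ) : ℤ) := (Int.toNat_of_nonneg hwnn).symm
  rw [h1, h2']
  exact_mod_cast hdvd

/-- **(SWD)**, modulo the leaves [RAM] and [ALG]: `R` is an ARBITRARY subring of `ℂ`, `φ` an
arbitrary ring homomorphism to a field of characteristic `l ≥ 5`. -/
theorem swd_hom_of (hram : StRam) (hcore : StCore.{u}) (l : ℕ) [Fact l.Prime] (hl : 5 ≤ l)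
    (R : Subring ℂ) {k : Type u} [Field k] [CharP k l] (φ : R →+* k) (w : ℤ)
    (f : ModularForm 𝒮ℒ w) (hf : ∀ n, (qExpansion 1 f).coeff n ∈ R)
    (hn : ∀ n, 1 ≤ n → φ ⟨(qExpansion 1 f).coeff n, hf n⟩ = 0)
    (h0 : φ ⟨(qExpansion 1 f).coeff 0, hf 0⟩ ≠ 0) : ((l : ℤ) - 1) ∣ w := by
  have hlp : l.Prime := Fact.out
  have hk : 3 ≤ l - 1 := by omega
  obtain ⟨a, b, hb, -, hEm⟩ := H7.h7_vs_E l hl hk
  have hb0 : b ≠ 0 := by
    rintro rfl
    exact hb (dvd_zero _)
  -- invert `6 * b`
  have hs : φ ((6 * b : ℤ) : R) ≠ 0 := by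
    rw [map_intCast, Ne, CharP.intCast_eq_zero_iff k l]
    intro hdiv
    have hpl : Prime (l : ℤ) := Nat.prime_iff_prime_int.mp hlp
    rcases hpl.dvd_or_dvd hdiv with h | h
    · have h' : l ∣ 6 := by exact_mod_cast h
      have h6 : (6 : ℕ) = 2 * 3 := by norm_num
      rw [h6] at h'
      rcases (Nat.Prime.dvd_mul hlp).mp h' with h'' | h''
      · have := Nat.le_of_dvd (by norm_num) h''
        omega
      · have := Nat.le_of_dvd (by norm_num) h''
        omega
    · exact hb h
  obtain ⟨R', hle, φ', hsR', hφ'⟩ := exists_extend R φ ((6 * b : ℤ) : R) hs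
  have hsv : ((((6 * b : ℤ) : R) : ℂ))⁻¹ = ((6 : ℂ) * (b : ℂ))⁻¹ := by
    push_cast
    rfl
  rw [hsv] at hsR'
  have hbC : (b : ℂ) ≠ 0 := by exact_mod_cast hb0
  have h2 : (2 : ℂ)⁻¹ ∈ R' := by
    have e : (2 : ℂ)⁻¹ = ((3 * b : ℤ) : ℂ) * ((6 : ℂ) * (b : ℂ))⁻¹ := by
      push_cast
      field_simp
      norm_num
    rw [e]
    exact R'.mul_mem (intCast_mem R' _) hsR'
  have h3 : (3 : ℂ)⁻¹ ∈ R' := by
    have e : (3 : ℂ)⁻¹ = ((2 * b : ℤ) : ℂ) * ((6 : ℂ) * (b : ℂ))⁻¹ := by
      push_cast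
      field_simp
      norm_num
    rw [e]
    exact R'.mul_mem (intCast_mem R' _) hsR'
  have hbR : ((b : ℂ))⁻¹ ∈ R' := by
    have e : ((b : ℂ))⁻¹ = ((6 : ℤ) : ℂ) * ((6 : ℂ) * (b : ℂ))⁻¹ := by
      push_cast
      field_simp
    rw [e]
    exact R'.mul_mem (intCast_mem R' _) hsR'
  have hE : ∀ m, 1 ≤ m → ∃ r ∈ R', (qExpansion 1 (E hk)).coeff m = (l : ℂ) * r := by
    intro m hm
    refine ⟨(a : ℂ) * ((b : ℂ))⁻¹ * ((ArithmeticFunction.sigma (l - 2) m : ℕ) : ℂ), ?_, ?_⟩
    · exact R'.mul_mem (R'.mul_mem (intCast_mem R' a) hbR) (natCast_mem R' _)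
    · rw [hEm m hm]
      field_simp
  refine swd_hom_aux hram hcore l hl R' h2 h3 hk hE φ' w f (fun n => hle (hf n)) ?_ ?_
  · intro n hn1
    have := hφ' ⟨(qExpansion 1 f).coeff n, hf n⟩
    rw [← hn n hn1, ← this]
    rfl
  · have := hφ' ⟨(qExpansion 1 f).coeff 0, hf 0⟩
    intro h
    apply h0
    rw [← this, ← h]
    rfl

end Fermat.Agent.S16x.Swd.H29
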