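import Mathlib
import Fermat.Agent.S28.Mod.H17_QExpDeriv

/-!
# S16 / SWD, bridge [RAM] (helper8): Ramanujan's identities

`12 D E₂ = E₂² - E₄`, `3 D E₄ = E₂ E₄ - E₆`, `2 D E₆ = E₂ E₆ - E₄²` as identities of functions on
the upper half plane (`D = (2πi)⁻¹ d/dz`), and as identities between `q`-expansions in
`PowerSeries ℂ` with `θ = X · d/dX`.
-/

set_option autoImplicit false

noncomputable section

namespace Fermat.Agent.S16x.Swd.H8

open UpperHalfPlane ModularForm EisensteinSeries Derivative Filter Topology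
open scoped MatrixGroups ModularForm Manifold Real ArithmeticFunction.sigma
open Fermat.Agent.S23.R5 Fermat.Agent.S28.Mod.QD

local notation "𝕢" => Function.Periodic.qParam

/-! ### `E₂` at `i∞` -/

theorem e2_periodic : Function.Periodic (E2 ∘ ofComplex) 1 := by
  intro w
  simp only [Function.comp_apply]
  by_cases hw : 0 < w.im
  · have hw' : 0 < (w + 1).im := by simpa using hw
    rw [ofComplex_apply_of_im_pos hw, ofComplex_apply_of_im_pos hw']
    have h1 := (hasSum_qExpansion_E2 (z := ⟨w + 1, hw'⟩)).tsum_eq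
    have h2 := (hasSum_qExpansion_E2 (z := ⟨w, hw⟩)).tsum_eq
    rw [← h1, ← h2]
    have e : 𝕢 1 ((⟨w + 1, hw'⟩ : ℍ) : ℂ) = 𝕢 1 ((⟨w, hw⟩ : ℍ) : ℂ) := by
      change 𝕢 1 (w + 1) = 𝕢 1 w
      exact qParam_one_add_one w
    simp only [Function.Periodic.qParam, Complex.ofReal_one, div_one] at e
    simp only [e]
  · have hw0 : w.im ≤ 0 := not_lt.mp hw
    have hw' : (w + 1).im ≤ 0 := by simpa using hw0
    rw [ofComplex_apply_eq_of_im_nonpos hw' hw0]

theorem niceAtInf_E2 : NiceAtInf E2 :=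
  ⟨e2_periodic, E2_mdifferentiable, isBoundedAtImInfty_E2⟩

theorem qExpansion_E2_coeff (m : ℕ) :
    (qExpansion 1 E2).coeff m = if m = 0 then 1 else -24 * (σ 1 m : ℂ) := by
  refine (qExpansion_coeff_unique_fn (c := fun m : ℕ => if m = 0 then 1 else -24 * (σ 1 m : ℂ))
    niceAtInf_E2.analyticAt (fun τ => ?_) m).symm
  simpa only [Function.Periodic.qParam, Complex.ofReal_one, div_one] using
    hasSum_qExpansion_E2 (z := τ)

/-! ### The Serre derivative of a level one form -/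

theorem niceAtInf_of_levelOne {k : ℤ} (f : ModularForm 𝒮ℒ k) : NiceAtInf (f : ℍ → ℂ) :=
  NiceAtInf.of_modularForm f one_mem_strictPeriods_SL

theorem serreDerivative_eq_sub (k : ℂ) (F : ℍ → ℂ) :
    serreDerivative k F = D F - (fun _ : ℍ => k * 12⁻¹) * (E2 * F) := by
  funext z
  simp only [serreDerivative_apply, Pi.sub_apply, Pi.mul_apply]
  ring

theorem niceAtInf_serreDerivative (k : ℂ) {F : ℍ → ℂ} (hF : NiceAtInf F) :
    NiceAtInf (serreDerivative k F) := by
  rw [serreDerivative_eq_sub]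
  exact (niceAtInf_D hF).sub ((NiceAtInf.const _).mul (niceAtInf_E2.mul hF))

theorem slash_SL_levelOne {k : ℤ} (f : ModularForm 𝒮ℒ k) (γ : SL(2, ℤ)) :
    (f : ℍ → ℂ) ∣[k] γ = f := by
  have hγ : (γ : GL (Fin 2) ℝ) ∈ 𝒮ℒ := ⟨γ, rfl⟩
  rw [SL_slash]
  exact SlashInvariantForm.slash_action_eqn f _ hγ

theorem serreDerivative_slash_levelOne {k : ℤ} (f : ModularForm 𝒮ℒ k) (γ : SL(2, ℤ)) :
    serreDerivative k f ∣[k + 2] γ = serreDerivative k f :=
  serreDerivative_slash_invariant (ModularFormClass.holo f) (slash_SL_levelOne f γ)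

/-- The Serre derivative of a level one modular form of weight `k`, as a modular form of weight
`k + 2`. -/
def serreMF {k : ℤ} (f : ModularForm 𝒮ℒ k) : ModularForm 𝒮ℒ (k + 2) where
  toFun := serreDerivative k f
  slash_action_eq' := fun _ ⟨γ, hγ⟩ ↦ hγ ▸ serreDerivative_slash_levelOne f γ
  holo' := serreDerivative_mdifferentiable k (ModularFormClass.holo f)
  bdd_at_cusps' {c} hc := by
    rw [Subgroup.IsArithmetic.isCusp_iff_isCusp_SL2Z] at hc
    rw [OnePoint.isBoundedAt_iff_forall_SL2Z hc]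
    intro γ _
    rw [serreDerivative_slash_levelOne f γ]
    exact (niceAtInf_serreDerivative k (niceAtInf_of_levelOne f)).bdd

@[simp] theorem coe_serreMF {k : ℤ} (f : ModularForm 𝒮ℒ k) :
    (serreMF f : ℍ → ℂ) = serreDerivative k f := rfl

/-! ### The quasi-modular form `E₂`: `D E₂ - E₂² / 12` has weight `4` -/

theorem mdifferentiable_D2 (γ : SL(2, ℤ)) : MDiff (D2 γ) := by
  have h : D2 γ = (fun _ : ℍ => (2 * π * Complex.I * γ 1 0 : ℂ)) *
      (fun τ : ℍ => (denom (γ : GL (Fin 2) ℝ) τ)⁻¹) := by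
    funext z
    simp [D2, div_eq_mul_inv]
  rw [h]
  exact mdifferentiable_const.mul (mdifferentiable_inv_denom _)

theorem D_D2 (γ : SL(2, ℤ)) (z : ℍ) :
    D (D2 γ) z = -((γ 1 0 : ℂ) / denom (γ : GL (Fin 2) ℝ) z) ^ 2 := by
  simp only [normalizedDerivOfComplex]
  have h := hasDerivAt_denom_zpow (γ : GL (Fin 2) ℝ) (-1) z
  have heq : (D2 γ ∘ ofComplex) =ᶠ[𝓝 (z : ℂ)]
      fun w => (2 * π * Complex.I * γ 1 0 : ℂ) * (denom (γ : GL (Fin 2) ℝ) w) ^ (-1 : ℤ) := by
    filter_upwards [isOpen_upperHalfPlaneSet.mem_nhds z.im_pos] with w hw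
    simp [D2, ofComplex_apply_of_im_pos hw, div_eq_mul_inv]
  rw [((h.const_mul (2 * π * Complex.I * γ 1 0 : ℂ)).congr_of_eventuallyEq heq).deriv]
  have hd : denom (γ : GL (Fin 2) ℝ) z ≠ 0 := denom_ne_zero _ z
  have hpi : (2 * (π : ℂ) * Complex.I) ≠ 0 := Complex.two_pi_I_ne_zero
  have hc : (((γ : GL (Fin 2) ℝ) 1 0 : ℝ) : ℂ) = (γ 1 0 : ℂ) := by simp
  rw [hc]
  have e : (-1 : ℤ) - 1 = -2 := by norm_num
  rw [e, zpow_neg, zpow_ofNat]
  field_simp
  push_cast
  ring

theorem serreDerivative_E2_slash (γ : SL(2, ℤ)) :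
    serreDerivative 1 E2 ∣[(4 : ℤ)] γ = serreDerivative 1 E2 := by
  ext z
  have hD := congrFun (normalizedDerivOfComplex_SL_slash (k := 2) E2_mdifferentiable (γ := γ)) z
  have hE : E2 ∣[(2 : ℤ)] γ = E2 - (1 / (2 * riemannZeta 2)) • D2 γ := E2_slash_action γ
  have hDE : D (E2 ∣[(2 : ℤ)] γ) z = D E2 z - (1 / (2 * riemannZeta 2)) * D (D2 γ) z := by
    rw [hE, normalizedDerivOfComplex_sub _ _ E2_mdifferentiable
      ((mdifferentiable_D2 γ).const_smul _),
      normalizedDerivOfComplex_smul _ _ (mdifferentiable_D2 γ)]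
    simp
  have hEz : (E2 ∣[(2 : ℤ)] γ) z = E2 z - (1 / (2 * riemannZeta 2)) * D2 γ z := by
    rw [hE]; simp
  have h4 : (serreDerivative 1 E2 ∣[(4 : ℤ)] γ) z =
      (D E2 ∣[(2 + 2 : ℤ)] γ) z - 12⁻¹ * ((E2 ∣[(2 : ℤ)] γ) z * (E2 ∣[(2 : ℤ)] γ) z) := by
    simp only [ModularForm.SL_slash_apply, serreDerivative_apply]
    have e1 : (2 + 2 : ℤ) = 4 := by norm_num
    have e2 : (denom (γ : GL (Fin 2) ℝ) z) ^ (-(4 : ℤ)) =
        (denom (γ : GL (Fin 2) ℝ) z) ^ (-(2 : ℤ)) * (denom (γ : GL (Fin 2) ℝ) z) ^ (-(2 : ℤ)) := by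
      rw [← zpow_add₀ (denom_ne_zero _ z)]
      norm_num
    rw [e1, e2]
    ring
  rw [h4]
  have hDz : (D E2 ∣[(2 + 2 : ℤ)] γ) z = D (E2 ∣[(2 : ℤ)] γ) z +
      (2 : ℂ) * (2 * π * Complex.I)⁻¹ * ((γ 1 0 : ℂ) / denom (γ : GL (Fin 2) ℝ) z) *
        (E2 ∣[(2 : ℤ)] γ) z := by
    rw [hD]
    simp only [Pi.sub_apply]
    push_cast
    ring
  rw [hDz, hDE, hEz, D_D2, serreDerivative_apply, riemannZeta_two]
  have hD2 : D2 γ z = (2 * π * Complex.I) * ((γ 1 0 : ℂ) / denom (γ : GL (Fin 2) ℝ) z) := by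
    simp [D2]; ring
  rw [hD2]
  generalize ((γ 1 0 : ℂ) / denom (γ : GL (Fin 2) ℝ) z) = φ
  have hpi : (π : ℂ) ≠ 0 := by exact_mod_cast Real.pi_ne_zero
  have hI : Complex.I ≠ 0 := Complex.I_ne_zero
  field_simp
  ring_nf
  linear_combination (-72 * Complex.I * φ ^ 2 + 24 * π * φ * E2 z) * Complex.I_sq

/-- `D E₂ - E₂² / 12` as a modular form of weight `4`. -/
def ramE2MF : ModularForm 𝒮ℒ 4 where
  toFun := serreDerivative 1 E2
  slash_action_eq' := fun _ ⟨γ, hγ⟩ ↦ hγ ▸ serreDerivative_E2_slash γ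
  holo' := serreDerivative_mdifferentiable 1 E2_mdifferentiable
  bdd_at_cusps' {c} hc := by
    rw [Subgroup.IsArithmetic.isCusp_iff_isCusp_SL2Z] at hc
    rw [OnePoint.isBoundedAt_iff_forall_SL2Z hc]
    intro γ _
    rw [serreDerivative_E2_slash γ]
    exact (niceAtInf_serreDerivative 1 niceAtInf_E2).bdd

@[simp] theorem coe_ramE2MF : (ramE2MF : ℍ → ℂ) = serreDerivative 1 E2 := rfl

/-! ### `q`-expansions -/

/-- the operator `θ = X · d/dX` on power series. -/
def theta {A : Type*} [CommSemiring A] (f : PowerSeries A) : PowerSeries A :=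
  PowerSeries.X * PowerSeries.derivative A f

theorem coeff_theta {A : Type*} [CommSemiring A] (f : PowerSeries A) (n : ℕ) :
    (theta f).coeff n = (n : A) * f.coeff n := by
  unfold theta
  rcases n with _ | n
  · simp
  · rw [PowerSeries.coeff_succ_X_mul, PowerSeries.coeff_derivative]
    push_cast
    ring

theorem qExpansion_D {F : ℍ → ℂ} (hF : NiceAtInf F) :
    qExpansion 1 (D F) = theta (qExpansion 1 F) := by
  ext n
  rw [qExpansion_D_coeff hF, coeff_theta]

theorem qExpansion_const (c : ℂ) : qExpansion 1 (fun _ : ℍ => c) = PowerSeries.C c := by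
  have h := qExpansion_smul (h := 1) NiceAtInf.one.analyticAt c
  have e : (c • (1 : ℍ → ℂ)) = fun _ : ℍ => c := by
    funext z; simp
  rw [e, qExpansion_one] at h
  rw [h]
  ext n
  simp [PowerSeries.coeff_C, PowerSeries.coeff_one]

theorem qExpansion_serreDerivative (k : ℂ) {F : ℍ → ℂ} (hF : NiceAtInf F) :
    qExpansion 1 (serreDerivative k F) =
      theta (qExpansion 1 F) - PowerSeries.C (k * 12⁻¹) * (qExpansion 1 E2 * qExpansion 1 F) := by
  rw [serreDerivative_eq_sub,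
    qExpansion_sub (niceAtInf_D hF).analyticAt
      ((NiceAtInf.const _).mul (niceAtInf_E2.mul hF)).analyticAt,
    qExpansion_mul (NiceAtInf.const _).analyticAt (niceAtInf_E2.mul hF).analyticAt,
    qExpansion_mul niceAtInf_E2.analyticAt hF.analyticAt, qExpansion_D hF, qExpansion_const]

/-! ### Vanishing in small weight and the three identities -/

theorem eq_zero_of_small_weight {k : ℤ} (hk : k.toNat / 12 = 0) (f : ModularForm 𝒮ℒ k)
    (h0 : (qExpansion 1 (f : ℍ → ℂ)).coeff 0 = 0) : f = 0 := by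
  apply sturm_bound_levelOne
  rw [hk]
  have h : (qExpansion 1 (f : ℍ → ℂ)).order ≠ 0 :=
    PowerSeries.order_ne_zero_iff_constCoeff_eq_zero.mpr (by simpa using h0)
  simpa [pos_iff_ne_zero] using h

/-- the `q`-expansions of `E₂`, `E₄`, `E₆`. -/
def Pc : PowerSeries ℂ := qExpansion 1 E2
def Qc : PowerSeries ℂ := qExpansion 1 (E₄ : ℍ → ℂ)
def Rc : PowerSeries ℂ := qExpansion 1 (E₆ : ℍ → ℂ)

theorem coeff_zero_Pc : Pc.coeff 0 = 1 := by
  simp [Pc, qExpansion_E2_coeff]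

theorem coeff_zero_Qc : Qc.coeff 0 = 1 := E_qExpansion_coeff_zero _ ⟨2, rfl⟩

theorem coeff_zero_Rc : Rc.coeff 0 = 1 := E_qExpansion_coeff_zero _ ⟨3, rfl⟩

theorem niceAtInf_E4 : NiceAtInf (E₄ : ℍ → ℂ) := niceAtInf_of_levelOne E₄

theorem niceAtInf_E6 : NiceAtInf (E₆ : ℍ → ℂ) := niceAtInf_of_levelOne E₆

theorem coeff_zero_theta {A : Type*} [CommSemiring A] (f : PowerSeries A) :
    (theta f).coeff 0 = 0 := by
  rw [coeff_theta]; simp

/-- **Ramanujan**: `D E₂ - E₂² / 12 = - E₄ / 12`. -/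
theorem ramanujan_E2_fun : serreDerivative 1 E2 = (-12⁻¹ : ℂ) • (E₄ : ℍ → ℂ) := by
  have h : ramE2MF + (12⁻¹ : ℂ) • E₄ = 0 := by
    apply eq_zero_of_small_weight (by decide)
    have e : ((ramE2MF + (12⁻¹ : ℂ) • E₄ : ModularForm 𝒮ℒ 4) : ℍ → ℂ) =
        serreDerivative 1 E2 + (12⁻¹ : ℂ) • (E₄ : ℍ → ℂ) := rfl
    rw [e, qExpansion_add (niceAtInf_serreDerivative 1 niceAtInf_E2).analyticAt
      (niceAtInf_E4.smul _).analyticAt, qExpansion_smul niceAtInf_E4.analyticAt,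
      qExpansion_serreDerivative 1 niceAtInf_E2]
    have hP := coeff_zero_Pc
    have hQ := coeff_zero_Qc
    unfold Pc at hP
    unfold Qc at hQ
    simp only [map_add, map_sub, PowerSeries.coeff_smul,
      coeff_zero_theta, PowerSeries.coeff_zero_eq_constantCoeff, map_mul] at hP hQ ⊢
    rw [hP, hQ]
    simp
  funext z
  have hz : serreDerivative 1 E2 z + 12⁻¹ * E₄ z = 0 := DFunLike.congr_fun h z
  simp only [Pi.smul_apply, smul_eq_mul]
  linear_combination hz

theorem serreDerivative_eq_of_small_weight {k : ℤ} (hk : (k + 2).toNat / 12 = 0)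
    (f : ModularForm 𝒮ℒ k) (g : ModularForm 𝒮ℒ (k + 2))
    (hf0 : (qExpansion 1 (f : ℍ → ℂ)).coeff 0 = 1)
    (hg0 : (qExpansion 1 (g : ℍ → ℂ)).coeff 0 = 1) :
    serreDerivative k f = (-((k : ℂ) * 12⁻¹)) • (g : ℍ → ℂ) := by
  have hf := niceAtInf_of_levelOne f
  have hg := niceAtInf_of_levelOne g
  have h : serreMF f + ((k : ℂ) * 12⁻¹) • g = 0 := by
    apply eq_zero_of_small_weight hk
    have e : ((serreMF f + ((k : ℂ) * 12⁻¹) • g : ModularForm 𝒮ℒ (k + 2)) : ℍ → ℂ) =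
        serreDerivative k f + ((k : ℂ) * 12⁻¹) • (g : ℍ → ℂ) := rfl
    rw [e, qExpansion_add (niceAtInf_serreDerivative k hf).analyticAt
      (hg.smul _).analyticAt, qExpansion_smul hg.analyticAt,
      qExpansion_serreDerivative k hf]
    have hP := coeff_zero_Pc
    unfold Pc at hP
    simp only [map_add, map_sub, PowerSeries.coeff_smul,
      coeff_zero_theta, PowerSeries.coeff_zero_eq_constantCoeff, map_mul] at hP hf0 hg0 ⊢
    rw [hP, hf0, hg0]
    simp
  funext z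
  have hz : serreDerivative k f z + ((k : ℂ) * 12⁻¹) * g z = 0 := DFunLike.congr_fun h z
  simp only [Pi.smul_apply, smul_eq_mul]
  linear_combination hz

/-- **Ramanujan**: `D E₄ - E₂ E₄ / 3 = - E₆ / 3`. -/
theorem ramanujan_E4_fun : serreDerivative 4 E₄ = (-3⁻¹ : ℂ) • (E₆ : ℍ → ℂ) := by
  have h := serreDerivative_eq_of_small_weight (k := 4) (by decide) E₄
    (ModularForm.mcast (by norm_num : (6 : ℤ) = 4 + 2) E₆) coeff_zero_Qc coeff_zero_Rc
  have e : (ModularForm.mcast (by norm_num : (6 : ℤ) = 4 + 2) E₆ : ModularForm 𝒮ℒ (4 + 2))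
      = (E₆ : ℍ → ℂ) := rfl
  rw [e] at h
  have e4 : (((4 : ℤ) : ℂ)) = 4 := by norm_num
  rw [e4] at h
  rw [h]
  congr 1
  norm_num

/-- **Ramanujan**: `D E₆ - E₂ E₆ / 2 = - E₄² / 2`. -/
theorem ramanujan_E6_fun :
    serreDerivative 6 E₆ = (-2⁻¹ : ℂ) • ((E₄ : ℍ → ℂ) * (E₄ : ℍ → ℂ)) := by
  have h0 : (qExpansion 1 ((ModularForm.mcast (by norm_num : (4 : ℤ) + 4 = 6 + 2) (E₄.mul E₄) :
      ModularForm 𝒮ℒ (6 + 2)) : ℍ → ℂ)).coeff 0 = 1 := by
    have e : ((ModularForm.mcast (by norm_num : (4 : ℤ) + 4 = 6 + 2) (E₄.mul E₄) :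
      ModularForm 𝒮ℒ (6 + 2)) : ℍ → ℂ) = (E₄ : ℍ → ℂ) * (E₄ : ℍ → ℂ) := rfl
    rw [e, qExpansion_mul niceAtInf_E4.analyticAt niceAtInf_E4.analyticAt]
    have hQ := coeff_zero_Qc
    unfold Qc at hQ
    simp only [PowerSeries.coeff_zero_eq_constantCoeff, map_mul] at hQ ⊢
    rw [hQ]
    simp
  have h := serreDerivative_eq_of_small_weight (k := 6) (by decide) E₆
    (ModularForm.mcast (by norm_num : (4 : ℤ) + 4 = 6 + 2) (E₄.mul E₄)) coeff_zero_Rc h0
  have e : ((ModularForm.mcast (by norm_num : (4 : ℤ) + 4 = 6 + 2) (E₄.mul E₄) :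
      ModularForm 𝒮ℒ (6 + 2)) : ℍ → ℂ) = (E₄ : ℍ → ℂ) * (E₄ : ℍ → ℂ) := rfl
  rw [e] at h
  have e6 : (((6 : ℤ) : ℂ)) = 6 := by norm_num
  rw [e6] at h
  rw [h]
  congr 1
  norm_num

/-! ### The identities for `q`-expansions over `ℂ` -/

theorem ramanujan_Pc : 12 * theta Pc = Pc ^ 2 - Qc := by
  have h := congrArg (qExpansion 1) ramanujan_E2_fun
  rw [qExpansion_serreDerivative 1 niceAtInf_E2, qExpansion_smul niceAtInf_E4.analyticAt] at h
  change theta Pc - PowerSeries.C (1 * 12⁻¹ : ℂ) * (Pc * Pc) = (-12⁻¹ : ℂ) • Qc at h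
  ext n
  have hn := congrArg (PowerSeries.coeff n) h
  have e12 : (12 : PowerSeries ℂ) = PowerSeries.C (12 : ℂ) := by
    rw [map_ofNat]
  rw [e12]
  simp only [map_sub, PowerSeries.coeff_C_mul, PowerSeries.coeff_smul] at hn ⊢
  rw [pow_two]
  linear_combination 12 * hn

theorem ramanujan_Qc : 3 * theta Qc = Pc * Qc - Rc := by
  have h := congrArg (qExpansion 1) ramanujan_E4_fun
  rw [qExpansion_serreDerivative 4 niceAtInf_E4, qExpansion_smul niceAtInf_E6.analyticAt] at h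
  change theta Qc - PowerSeries.C (4 * 12⁻¹ : ℂ) * (Pc * Qc) = (-3⁻¹ : ℂ) • Rc at h
  ext n
  have hn := congrArg (PowerSeries.coeff n) h
  have e3 : (3 : PowerSeries ℂ) = PowerSeries.C (3 : ℂ) := by
    rw [map_ofNat]
  rw [e3]
  simp only [map_sub, PowerSeries.coeff_C_mul, PowerSeries.coeff_smul] at hn ⊢
  linear_combination 3 * hn

theorem ramanujan_Rc : 2 * theta Rc = Pc * Rc - Qc ^ 2 := by
  have h := congrArg (qExpansion 1) ramanujan_E6_fun
  rw [qExpansion_serreDerivative 6 niceAtInf_E6,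
    qExpansion_smul (niceAtInf_E4.mul niceAtInf_E4).analyticAt,
    qExpansion_mul niceAtInf_E4.analyticAt niceAtInf_E4.analyticAt] at h
  change theta Rc - PowerSeries.C (6 * 12⁻¹ : ℂ) * (Pc * Rc) = (-2⁻¹ : ℂ) • (Qc * Qc) at h
  ext n
  have hn := congrArg (PowerSeries.coeff n) h
  have e2 : (2 : PowerSeries ℂ) = PowerSeries.C (2 : ℂ) := by
    rw [map_ofNat]
  rw [e2]
  simp only [map_sub, PowerSeries.coeff_C_mul, PowerSeries.coeff_smul] at hn ⊢
  rw [pow_two]
  linear_combination 2 * hn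

/-! ### The integral `q`-series and the identities over an arbitrary commutative ring -/

/-- `1 - 24 ∑ σ₁(n) qⁿ` -/
def Pz : PowerSeries ℤ := PowerSeries.mk fun n => if n = 0 then 1 else -24 * (σ 1 n : ℤ)

/-- `1 + 240 ∑ σ₃(n) qⁿ` -/
def Qz : PowerSeries ℤ := PowerSeries.mk fun n => if n = 0 then 1 else 240 * (σ 3 n : ℤ)

/-- `1 - 504 ∑ σ₅(n) qⁿ` -/
def Rz : PowerSeries ℤ := PowerSeries.mk fun n => if n = 0 then 1 else -504 * (σ 5 n : ℤ)

theorem coeff_Pz (n : ℕ) : Pz.coeff n = if n = 0 then 1 else -24 * (σ 1 n : ℤ) :=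
  PowerSeries.coeff_mk _ _

theorem coeff_Qz (n : ℕ) : Qz.coeff n = if n = 0 then 1 else 240 * (σ 3 n : ℤ) :=
  PowerSeries.coeff_mk _ _

theorem coeff_Rz (n : ℕ) : Rz.coeff n = if n = 0 then 1 else -504 * (σ 5 n : ℤ) :=
  PowerSeries.coeff_mk _ _

theorem coeff_Qc (n : ℕ) : Qc.coeff n = if n = 0 then 1 else 240 * (σ 3 n : ℂ) := by
  unfold Qc
  rw [E_qExpansion_coeff _ ⟨2, rfl⟩]
  split_ifs with h
  · rfl
  · norm_num [show bernoulli 4 = -1 / 30 by decide +kernel]

theorem coeff_Rc (n : ℕ) : Rc.coeff n = if n = 0 then 1 else -504 * (σ 5 n : ℂ) := by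
  unfold Rc
  rw [E_qExpansion_coeff _ ⟨3, rfl⟩]
  split_ifs with h
  · rfl
  · norm_num [show bernoulli 6 = 1 / 42 by decide +kernel]

theorem map_Pz : PowerSeries.map (Int.castRingHom ℂ) Pz = Pc := by
  ext n
  rw [PowerSeries.coeff_map, coeff_Pz]
  unfold Pc
  rw [qExpansion_E2_coeff]
  split_ifs <;> simp

theorem map_Qz : PowerSeries.map (Int.castRingHom ℂ) Qz = Qc := by
  ext n
  rw [PowerSeries.coeff_map, coeff_Qz, coeff_Qc]
  split_ifs <;> simp

theorem map_Rz : PowerSeries.map (Int.castRingHom ℂ) Rz = Rc := by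
  ext n
  rw [PowerSeries.coeff_map, coeff_Rz, coeff_Rc]
  split_ifs <;> simp

theorem theta_map {A B : Type*} [CommSemiring A] [CommSemiring B] (f : A →+* B)
    (g : PowerSeries A) : theta (PowerSeries.map f g) = PowerSeries.map f (theta g) := by
  ext n
  simp only [coeff_theta, PowerSeries.coeff_map, map_mul, map_natCast]

theorem map_intCast_injective :
    Function.Injective (PowerSeries.map (Int.castRingHom ℂ)) := by
  intro f g h
  ext n
  have hn := congrArg (PowerSeries.coeff n) h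
  simp only [PowerSeries.coeff_map] at hn
  exact Int.cast_injective hn

theorem ramanujan_Pz : 12 * theta Pz = Pz ^ 2 - Qz := by
  apply map_intCast_injective
  simp only [map_mul, map_sub, map_pow, ← theta_map, map_Pz, map_Qz, map_ofNat]
  exact ramanujan_Pc

theorem ramanujan_Qz : 3 * theta Qz = Pz * Qz - Rz := by
  apply map_intCast_injective
  simp only [map_mul, map_sub, ← theta_map, map_Pz, map_Qz, map_Rz, map_ofNat]
  exact ramanujan_Qc

theorem ramanujan_Rz : 2 * theta Rz = Pz * Rz - Qz ^ 2 := by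
  apply map_intCast_injective
  simp only [map_mul, map_sub, map_pow, ← theta_map, map_Pz, map_Qz, map_Rz, map_ofNat]
  exact ramanujan_Rc

section General

variable (A : Type*) [CommRing A]

/-- `1 - 24 ∑ σ₁(n) qⁿ` over `A`. -/
def Pser : PowerSeries A := PowerSeries.map (Int.castRingHom A) Pz

/-- `1 + 240 ∑ σ₃(n) qⁿ` over `A`. -/
def Qser : PowerSeries A := PowerSeries.map (Int.castRingHom A) Qz

/-- `1 - 504 ∑ σ₅(n) qⁿ` over `A`. -/
def Rser : PowerSeries A := PowerSeries.map (Int.castRingHom A) Rz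

theorem coeff_Pser (n : ℕ) : (Pser A).coeff n = if n = 0 then 1 else -24 * (σ 1 n : A) := by
  unfold Pser
  rw [PowerSeries.coeff_map, coeff_Pz]
  split_ifs <;> simp

theorem coeff_Qser (n : ℕ) : (Qser A).coeff n = if n = 0 then 1 else 240 * (σ 3 n : A) := by
  unfold Qser
  rw [PowerSeries.coeff_map, coeff_Qz]
  split_ifs <;> simp

theorem coeff_Rser (n : ℕ) : (Rser A).coeff n = if n = 0 then 1 else -504 * (σ 5 n : A) := by
  unfold Rser
  rw [PowerSeries.coeff_map, coeff_Rz]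
  split_ifs <;> simp

@[simp] theorem constantCoeff_Pser : PowerSeries.constantCoeff (Pser A) = 1 := by
  rw [← PowerSeries.coeff_zero_eq_constantCoeff_apply, coeff_Pser]; simp

@[simp] theorem constantCoeff_Qser : PowerSeries.constantCoeff (Qser A) = 1 := by
  rw [← PowerSeries.coeff_zero_eq_constantCoeff_apply, coeff_Qser]; simp

@[simp] theorem constantCoeff_Rser : PowerSeries.constantCoeff (Rser A) = 1 := by
  rw [← PowerSeries.coeff_zero_eq_constantCoeff_apply, coeff_Rser]; simp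

/-- **Ramanujan's identities** over an arbitrary commutative ring. -/
theorem ramanujan_P : 12 * theta (Pser A) = Pser A ^ 2 - Qser A := by
  have h := congrArg (PowerSeries.map (Int.castRingHom A)) ramanujan_Pz
  unfold Pser Qser
  simpa only [map_mul, map_sub, map_pow, ← theta_map, map_ofNat] using h

theorem ramanujan_Q : 3 * theta (Qser A) = Pser A * Qser A - Rser A := by
  have h := congrArg (PowerSeries.map (Int.castRingHom A)) ramanujan_Qz
  unfold Pser Qser Rser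
  simpa only [map_mul, map_sub, ← theta_map, map_ofNat] using h

theorem ramanujan_R : 2 * theta (Rser A) = Pser A * Rser A - Qser A ^ 2 := by
  have h := congrArg (PowerSeries.map (Int.castRingHom A)) ramanujan_Rz
  unfold Pser Qser Rser
  simpa only [map_mul, map_sub, map_pow, ← theta_map, map_ofNat] using h

theorem coeff_zero_Q_cube_sub_R_sq : (Qser A ^ 3 - Rser A ^ 2).coeff 0 = 0 := by
  simp

theorem coeff_one_mul_aux (f g : PowerSeries A) :
    (f * g).coeff 1 = f.coeff 0 * g.coeff 1 + f.coeff 1 * g.coeff 0 := by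
  rw [PowerSeries.coeff_mul]
  simp [Finset.Nat.antidiagonal_succ]

theorem coeff_zero_mul_aux (f g : PowerSeries A) :
    (f * g).coeff 0 = f.coeff 0 * g.coeff 0 := by
  simp

theorem coeff_one_Q_cube_sub_R_sq : (Qser A ^ 3 - Rser A ^ 2).coeff 1 = 1728 := by
  have hQ1 : (Qser A).coeff 1 = 240 := by
    rw [coeff_Qser]; simp
  have hR1 : (Rser A).coeff 1 = -504 := by
    rw [coeff_Rser]; simp
  have hQ0 : (Qser A).coeff 0 = 1 := by simp
  have hR0 : (Rser A).coeff 0 = 1 := by simp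
  have e3 : Qser A ^ 3 = Qser A * (Qser A * Qser A) := by ring
  have e2 : Rser A ^ 2 = Rser A * Rser A := by ring
  rw [e3, e2, map_sub, coeff_one_mul_aux, coeff_one_mul_aux, coeff_zero_mul_aux,
    coeff_one_mul_aux, hQ0, hQ1, hR0, hR1]
  ring

theorem theta_eq (f : PowerSeries A) :
    theta f = PowerSeries.X * PowerSeries.derivative A f := rfl

end General

/-- In characteristic `l ≥ 5` the coefficient of `q` in `Q³ - R²` is nonzero. -/
theorem coeff_one_Q_cube_sub_R_sq_ne_zero (k : Type*) [Field k] (l : ℕ) [CharP k l]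
    (hl : l.Prime) (hl5 : 5 ≤ l) : (Qser k ^ 3 - Rser k ^ 2).coeff 1 ≠ 0 := by
  rw [coeff_one_Q_cube_sub_R_sq]
  have h : ((1728 : ℕ) : k) ≠ 0 := by
    intro h0
    rw [CharP.cast_eq_zero_iff k l] at h0
    have e : (1728 : ℕ) = 2 ^ 6 * 3 ^ 3 := by norm_num
    rw [e] at h0
    rcases (Nat.Prime.dvd_mul hl).mp h0 with h2 | h3
    · have := Nat.le_of_dvd (by norm_num) (hl.dvd_of_dvd_pow h2)
      omega
    · have := Nat.le_of_dvd (by norm_num) (hl.dvd_of_dvd_pow h3)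
      omega
  exact_mod_cast h

theorem Pser_int : Pser ℤ = Pz := by
  ext n; simp [Pser]

theorem Qser_int : Qser ℤ = Qz := by
  ext n; simp [Qser]

theorem Rser_int : Rser ℤ = Rz := by
  ext n; simp [Rser]

theorem coeff_one_Qz_cube_sub_Rz_sq : (Qz ^ 3 - Rz ^ 2).coeff 1 = 1728 := by
  have h := coeff_one_Q_cube_sub_R_sq ℤ
  rwa [Qser_int, Rser_int] at h

theorem constantCoeff_Pz : PowerSeries.constantCoeff Pz = 1 := by
  have h := constantCoeff_Pser ℤ
  rwa [Pser_int] at h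

theorem constantCoeff_Qz : PowerSeries.constantCoeff Qz = 1 := by
  have h := constantCoeff_Qser ℤ
  rwa [Qser_int] at h

theorem constantCoeff_Rz : PowerSeries.constantCoeff Rz = 1 := by
  have h := constantCoeff_Rser ℤ
  rwa [Rser_int] at h

/-- the `nsmul` forms of the integral identities. -/
theorem ramanujan_Pz_nsmul : (12 : ℕ) • theta Pz = Pz ^ 2 - Qz := by
  rw [← ramanujan_Pz, nsmul_eq_mul]; norm_num

theorem ramanujan_Qz_nsmul : (3 : ℕ) • theta Qz = Pz * Qz - Rz := by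
  rw [← ramanujan_Qz, nsmul_eq_mul]; norm_num

theorem ramanujan_Rz_nsmul : (2 : ℕ) • theta Rz = Pz * Rz - Qz ^ 2 := by
  rw [← ramanujan_Rz, nsmul_eq_mul]; norm_num

theorem qExpansion_E2_eq_map : qExpansion 1 E2 = PowerSeries.map (Int.castRingHom ℂ) Pz :=
  map_Pz.symm

theorem qExpansion_E4_eq_map :
    qExpansion 1 (E₄ : ℍ → ℂ) = PowerSeries.map (Int.castRingHom ℂ) Qz := map_Qz.symm

theorem qExpansion_E6_eq_map :
    qExpansion 1 (E₆ : ℍ → ℂ) = PowerSeries.map (Int.castRingHom ℂ) Rz := map_Rz.symm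

/-- the `q`-expansions of `E₂`, `E₄`, `E₆` are the integral series. -/
theorem qExpansion_E2_eq : qExpansion 1 E2 = Pser ℂ := map_Pz.symm

theorem qExpansion_E4_eq : qExpansion 1 (E₄ : ℍ → ℂ) = Qser ℂ := map_Qz.symm

theorem qExpansion_E6_eq : qExpansion 1 (E₆ : ℍ → ℂ) = Rser ℂ := map_Rz.symm

end Fermat.Agent.S16x.Swd.H8
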