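import Mathlib
import Fermat.Agent.S16x.Swd.H14_Core
import Fermat.Agent.S16x.Swd.H7_VS
import Fermat.Agent.S16x.L1.H15_Poly
import Fermat.Agent.S16x.Upl.Defs

/-!
# [SWD] final adapter: Ramanujan's identities ⟹ `Upl.StSwd`

`StRamC` is the only open input: the existence of a power series `P` over `ℂ` satisfying
Ramanujan's three identities together with the `q`-expansions of `E₄`, `E₆`.
-/

set_option autoImplicit false

namespace Fermat.Agent.S16x.Swd.H14

open ModularForm EisensteinSeries ModularFormClass UpperHalfPlane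
open scoped MatrixGroups

noncomputable section

/-- **[RAM]** Ramanujan's identities for the `q`-expansions of `E₄`, `E₆` (and some `P`). -/
def StRamC : Prop :=
  ∃ P : PowerSeries ℂ, 12 * theta P = P ^ 2 - L1.qE4 ∧
    3 * theta L1.qE4 = P * L1.qE4 - L1.qE6 ∧ 2 * theta L1.qE6 = P * L1.qE6 - L1.qE4 ^ 2

/-! ## 1. The integer series of `E₄`, `E₆`, `P` -/

/-- `E₄ = 1 + 240 Σ σ₃(n) qⁿ` over `ℤ`. -/
def QZ : PowerSeries ℤ :=
  1 + PowerSeries.C 240 * PowerSeries.mk fun n => ((ArithmeticFunction.sigma 3 n : ℕ) : ℤ)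

/-- `E₆ = 1 - 504 Σ σ₅(n) qⁿ` over `ℤ`. -/
def RZ : PowerSeries ℤ :=
  1 - PowerSeries.C 504 * PowerSeries.mk fun n => ((ArithmeticFunction.sigma 5 n : ℕ) : ℤ)

theorem map_QZ : PowerSeries.map (Int.castRingHom ℂ) QZ = L1.qE4 := by
  rw [L1.H15.h15_qE4_eq, QZ, map_add, map_one, map_mul, PowerSeries.map_C]
  ext n
  simp [L1.sigmaSer, PowerSeries.coeff_map]

theorem map_RZ : PowerSeries.map (Int.castRingHom ℂ) RZ = L1.qE6 := by
  rw [L1.H15.h15_qE6_eq, RZ, map_sub, map_one, map_mul, PowerSeries.map_C]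
  ext n
  simp [L1.sigmaSer, PowerSeries.coeff_map]

theorem constantCoeff_QZ : PowerSeries.constantCoeff QZ = 1 := by
  simp [QZ]

theorem constantCoeff_RZ : PowerSeries.constantCoeff RZ = 1 := by
  simp [RZ]

theorem map_int_injective : Function.Injective (PowerSeries.map (Int.castRingHom ℂ)) :=
  PowerSeries.map_injective _ Int.cast_injective

theorem coeff_one_discZ : PowerSeries.coeff 1 (QZ ^ 3 - RZ ^ 2) = 1728 := by
  have h := L1.H15.h15_qD_eq_poly
  rw [← map_QZ, ← map_RZ, ← map_pow, ← map_pow, ← map_sub] at h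
  have h1 := congrArg (PowerSeries.coeff 1) h
  rw [PowerSeries.coeff_C_mul, L1.H15.h15_coeff_one_qD, mul_one, PowerSeries.coeff_map] at h1
  have : ((PowerSeries.coeff 1 (QZ ^ 3 - RZ ^ 2) : ℤ) : ℂ) = ((1728 : ℤ) : ℂ) := by
    rw [← eq_intCast (Int.castRingHom ℂ), ← h1]
    norm_num
  exact_mod_cast this

/-- Descent of Ramanujan's identities to `ℤ⟦X⟧`. -/
theorem ramZ_of_ramC (h : StRamC) :
    ∃ PZ : PowerSeries ℤ, PowerSeries.constantCoeff PZ = 1 ∧
      12 * theta PZ = PZ ^ 2 - QZ ∧ 3 * theta QZ = PZ * QZ - RZ ∧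
      2 * theta RZ = PZ * RZ - QZ ^ 2 := by
  obtain ⟨P, hP, hQ, hR⟩ := h
  set Qi : PowerSeries ℤ := PowerSeries.invOfUnit QZ 1 with hQi
  have hQQ : QZ * Qi = 1 := PowerSeries.mul_invOfUnit QZ 1 (by simp [constantCoeff_QZ])
  set PZ : PowerSeries ℤ := (3 * theta QZ + RZ) * Qi with hPZ
  have hmap : PowerSeries.map (Int.castRingHom ℂ) PZ = P := by
    have h1 : PowerSeries.map (Int.castRingHom ℂ) (3 * theta QZ + RZ) = P * L1.qE4 := by
      rw [map_add, map_mul, ← theta_map, map_QZ, map_RZ, map_ofNat]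
      linear_combination hQ
    rw [hPZ, map_mul, h1, ← map_QZ, mul_assoc, ← map_mul, hQQ, map_one, mul_one]
  have e1 : 12 * theta PZ = PZ ^ 2 - QZ := by
    apply map_int_injective
    rw [map_mul, ← theta_map, map_sub, map_pow, hmap, map_QZ, map_ofNat]
    exact hP
  have e2 : 3 * theta QZ = PZ * QZ - RZ := by
    apply map_int_injective
    rw [map_mul, ← theta_map, map_sub, map_mul, hmap, map_QZ, map_RZ, map_ofNat]
    exact hQ
  have e3 : 2 * theta RZ = PZ * RZ - QZ ^ 2 := by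
    apply map_int_injective
    rw [map_mul, ← theta_map, map_sub, map_mul, map_pow, hmap, map_QZ, map_RZ, map_ofNat]
    exact hR
  refine ⟨PZ, ?_, e1, e2, e3⟩
  have h2 := congrArg PowerSeries.constantCoeff e2
  rw [map_mul, constantCoeff_theta, mul_zero, map_sub, map_mul, constantCoeff_QZ,
    constantCoeff_RZ, mul_one] at h2
  linarith

/-! ## 2. Reduction to a field of characteristic `l ≥ 5` -/

section Red

variable (k : Type*) [Field k]

/-- The reduction of `E₄`. -/
def Qk : PowerSeries k := PowerSeries.map (Int.castRingHom k) QZ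

/-- The reduction of `E₆`. -/
def Rk : PowerSeries k := PowerSeries.map (Int.castRingHom k) RZ

theorem constantCoeff_Qk : PowerSeries.constantCoeff (Qk k) = 1 := by
  have h := constantCoeff_QZ
  rw [← PowerSeries.coeff_zero_eq_constantCoeff_apply] at h ⊢
  rw [Qk, PowerSeries.coeff_map, h, map_one]

theorem constantCoeff_Rk : PowerSeries.constantCoeff (Rk k) = 1 := by
  have h := constantCoeff_RZ
  rw [← PowerSeries.coeff_zero_eq_constantCoeff_apply] at h ⊢
  rw [Rk, PowerSeries.coeff_map, h, map_one]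

theorem coeff_one_disck (l : ℕ) [Fact l.Prime] [CharP k l] (hl : 5 ≤ l) :
    PowerSeries.coeff 1 (Qk k ^ 3 - Rk k ^ 2) ≠ 0 := by
  have h : PowerSeries.coeff 1 (Qk k ^ 3 - Rk k ^ 2) = ((1728 : ℕ) : k) := by
    rw [Qk, Rk, ← map_pow, ← map_pow, ← map_sub, PowerSeries.coeff_map, coeff_one_discZ]
    simp
  rw [h]
  intro h0
  rw [CharP.cast_eq_zero_iff k l] at h0
  have hp : l.Prime := Fact.out
  have h1 : l ∣ 12 ^ 3 := by simpa using h0
  have h2 : l ∣ 12 := hp.dvd_of_dvd_pow h1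
  have h3 : l ≤ 12 := Nat.le_of_dvd (by norm_num) h2
  interval_cases l <;> first | omega | (exact absurd hp (by norm_num))

/-- Ramanujan's identities over `k`. -/
theorem ramk_of_ramC (h : StRamC) :
    ∃ Ps : PowerSeries k, PowerSeries.constantCoeff Ps = 1 ∧
      12 * theta Ps = Ps ^ 2 - Qk k ∧ 3 * theta (Qk k) = Ps * Qk k - Rk k ∧
      2 * theta (Rk k) = Ps * Rk k - Qk k ^ 2 := by
  obtain ⟨PZ, h0, hP, hQ, hR⟩ := ramZ_of_ramC h
  refine ⟨PowerSeries.map (Int.castRingHom k) PZ, ?_, ?_, ?_, ?_⟩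
  · rw [← PowerSeries.coeff_zero_eq_constantCoeff_apply] at h0 ⊢
    rw [PowerSeries.coeff_map, h0, map_one]
  · have := congrArg (PowerSeries.map (Int.castRingHom k)) hP
    rw [map_mul, ← theta_map, map_sub, map_pow, map_ofNat] at this
    exact this
  · have := congrArg (PowerSeries.map (Int.castRingHom k)) hQ
    rw [map_mul, ← theta_map, map_sub, map_mul, map_ofNat] at this
    exact this
  · have := congrArg (PowerSeries.map (Int.castRingHom k)) hR
    rw [map_mul, ← theta_map, map_sub, map_mul, map_pow, map_ofNat] at this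
    exact this

variable {k}

theorem isWH_map {R : Type*} [CommRing R] (φ : R →+* k) {P : MvPolynomial (Fin 2) R} {n : ℕ}
    (h : MvPolynomial.IsWeightedHomogeneous ![4, 6] P n) :
    MvPolynomial.IsWeightedHomogeneous ![4, 6] (MvPolynomial.map φ P) n := by
  intro d hd
  apply h
  intro h0
  apply hd
  rw [MvPolynomial.coeff_map, h0, map_zero]

/-- The series of `E₄` over the subring `R`. -/
def QR (R : Subring ℂ) : PowerSeries R := PowerSeries.map (Int.castRingHom R) QZ

/-- The series of `E₆` over the subring `R`. -/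
def RR (R : Subring ℂ) : PowerSeries R := PowerSeries.map (Int.castRingHom R) RZ

theorem map_subtype_QR (R : Subring ℂ) : PowerSeries.map R.subtype (QR R) = L1.qE4 := by
  rw [← map_QZ]
  ext n
  simp [QR, PowerSeries.coeff_map]

theorem map_subtype_RR (R : Subring ℂ) : PowerSeries.map R.subtype (RR R) = L1.qE6 := by
  rw [← map_RZ]
  ext n
  simp [RR, PowerSeries.coeff_map]

theorem map_QR {R : Subring ℂ} (φ : R →+* k) : PowerSeries.map φ (QR R) = Qk k := by
  ext n
  simp [QR, Qk, PowerSeries.coeff_map]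

theorem map_RR {R : Subring ℂ} (φ : R →+* k) : PowerSeries.map φ (RR R) = Rk k := by
  ext n
  simp [RR, Rk, PowerSeries.coeff_map]

theorem aeval_eq_map_subtype (R : Subring ℂ) (P : MvPolynomial (Fin 2) R) :
    MvPolynomial.aeval ![L1.qE4, L1.qE6] P =
      PowerSeries.map R.subtype (MvPolynomial.aeval ![QR R, RR R] P) := by
  induction P using MvPolynomial.induction_on with
  | C r =>
    rw [MvPolynomial.aeval_C, MvPolynomial.aeval_C, L1.H15.h15_algebraMap_apply]
    simp
  | add p q hp hq => rw [map_add, map_add, map_add, hp, hq]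
  | mul_X p i hp =>
    rw [map_mul, map_mul, map_mul, hp, MvPolynomial.aeval_X, MvPolynomial.aeval_X]
    fin_cases i
    · simp [map_subtype_QR]
    · simp [map_subtype_RR]

theorem map_aeval_eq {R : Subring ℂ} (φ : R →+* k) (P : MvPolynomial (Fin 2) R) :
    PowerSeries.map φ (MvPolynomial.aeval ![QR R, RR R] P) =
      MvPolynomial.aeval ![Qk k, Rk k] (MvPolynomial.map φ P) := by
  induction P using MvPolynomial.induction_on with
  | C r =>
    rw [MvPolynomial.aeval_C, MvPolynomial.map_C, MvPolynomial.aeval_C]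
    simp
  | add p q hp hq => rw [map_add, map_add, map_add, map_add, hp, hq]
  | mul_X p i hp =>
    rw [map_mul, map_mul, map_mul, map_mul, hp, MvPolynomial.aeval_X, MvPolynomial.map_X,
      MvPolynomial.aeval_X]
    fin_cases i
    · simp [map_QR]
    · simp [map_RR]

/-- Reduction of a level one form with `R`-integral `q`-expansion: an isobaric polynomial over
`k` whose value at `(Qk, Rk)` is the reduction of the `q`-expansion. -/
theorem red_form (R : Subring ℂ) (h6 : (6 : ℂ)⁻¹ ∈ R) (φ : R →+* k) (w : ℤ)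
    (g : ModularForm 𝒮ℒ w) (hg : ∀ n, (qExpansion 1 g).coeff n ∈ R) :
    ∃ F : MvPolynomial (Fin 2) k, MvPolynomial.IsWeightedHomogeneous ![4, 6] F w.toNat ∧
      ∀ n, PowerSeries.coeff n (MvPolynomial.aeval ![Qk k, Rk k] F) =
        φ ⟨(qExpansion 1 g).coeff n, hg n⟩ := by
  obtain ⟨P, hP, hPq⟩ := L1.H15.h15_stPOLY R h6 w g hg
  refine ⟨MvPolynomial.map φ P, isWH_map φ hP, fun n => ?_⟩
  rw [← map_aeval_eq, PowerSeries.coeff_map]
  congr 1
  apply Subtype.ext
  have := congrArg (PowerSeries.coeff n) hPq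
  rw [aeval_eq_map_subtype, PowerSeries.coeff_map] at this
  exact this.symm

end Red

/-! ## 3. The adapter -/

theorem phi_of_eq_int {k : Type*} [Field k] {R : Subring ℂ} (φ : R →+* k) (x : ℂ) (hx : x ∈ R)
    (z : ℤ) (h : x = z) : φ ⟨x, hx⟩ = (z : k) := by
  subst h
  have : (⟨(z : ℂ), hx⟩ : R) = ((z : ℤ) : R) := Subtype.ext (by simp)
  rw [this, map_intCast]

/-- **[SWD]** from Ramanujan's identities: `Upl.StSwd`, verbatim. -/
theorem stSwd_of_ram (hRam : StRamC) : Upl.StSwd := by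
  intro l _ hl R h2 h3 k _ _ φ w f hf hn h0
  have hlp : l.Prime := Fact.out
  have h6 : (6 : ℂ)⁻¹ ∈ R := by
    have : (6 : ℂ)⁻¹ = (2 : ℂ)⁻¹ * (3 : ℂ)⁻¹ := by norm_num
    rw [this]
    exact R.mul_mem h2 h3
  -- the weight is nonnegative
  have hw : 0 ≤ w := by
    by_contra hneg
    rw [not_le] at hneg
    have hz : (f : ℍ → ℂ) = 0 := ModularFormClass.levelOne_neg_weight_eq_zero hneg f
    apply h0
    have h1 : (qExpansion 1 f).coeff 0 = ((0 : ℤ) : ℂ) := by
      rw [hz, qExpansion_zero]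
      simp
    exact (phi_of_eq_int φ _ (hf 0) 0 h1).trans (by simp)
  -- Ramanujan over `k`
  obtain ⟨Ps, hP0, hP, hQ, hR⟩ := ramk_of_ramC k hRam
  -- the polynomial of `f`
  obtain ⟨F, hF, hFq⟩ := red_form R h6 φ w f hf
  have hFq' : MvPolynomial.aeval ![Qk k, Rk k] F = PowerSeries.C (φ ⟨_, hf 0⟩) := by
    ext n
    rw [hFq, PowerSeries.coeff_C]
    split_ifs with h
    · subst h; rfl
    · exact hn n (Nat.one_le_iff_ne_zero.2 h)
  -- the Hasse invariant
  have hk : 3 ≤ l - 1 := by omega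
  obtain ⟨a, b, hb, hE0, hEm⟩ := H7.h7_vs_E l hl hk
  have hb0 : (b : ℂ) ≠ 0 := by
    intro h
    have : b = 0 := by exact_mod_cast h
    exact hb (this ▸ dvd_zero _)
  obtain ⟨G, hG⟩ : ∃ G : ModularForm 𝒮ℒ ((l - 1 : ℕ) : ℤ), G = (b : ℂ) • E hk := ⟨_, rfl⟩
  have hGq : qExpansion 1 G = (b : ℂ) • qExpansion 1 (E hk) := by
    rw [hG]
    exact ModularForm.qExpansion_smul one_pos one_mem_strictPeriods_SL (b : ℂ) (E hk)
  have hG0 : (qExpansion 1 G).coeff 0 = ((b : ℤ) : ℂ) := by
    rw [hGq, PowerSeries.coeff_smul, hE0, smul_eq_mul, mul_one]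
  have hGm : ∀ m : ℕ, 1 ≤ m → (qExpansion 1 G).coeff m
      = (((l : ℤ) * (a * (ArithmeticFunction.sigma (l - 2) m : ℕ)) : ℤ) : ℂ) := by
    intro m hm
    rw [hGq, PowerSeries.coeff_smul, hEm m hm, smul_eq_mul]
    push_cast
    field_simp
  have hGR : ∀ n, (qExpansion 1 G).coeff n ∈ R := by
    intro n
    rcases Nat.eq_zero_or_pos n with rfl | hn'
    · rw [hG0]; exact intCast_mem R _
    · rw [hGm n hn']; exact intCast_mem R _
  obtain ⟨A', hA', hA'q⟩ := red_form R h6 φ _ G hGR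
  have hbk : ((b : ℤ) : k) ≠ 0 := by
    intro h
    rw [CharP.intCast_eq_zero_iff k l] at h
    exact hb h
  have hA'q' : MvPolynomial.aeval ![Qk k, Rk k] A' = PowerSeries.C ((b : ℤ) : k) := by
    ext n
    rw [hA'q, PowerSeries.coeff_C]
    split_ifs with h
    · subst h
      exact phi_of_eq_int φ _ _ b hG0
    · rw [phi_of_eq_int φ _ _ _ (hGm n (Nat.one_le_iff_ne_zero.2 h))]
      push_cast
      rw [CharP.cast_eq_zero k l, zero_mul]
  have hAwt : MvPolynomial.IsWeightedHomogeneous ![4, 6]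
      (MvPolynomial.C (((b : ℤ) : k)⁻¹) * A') (l - 1) := by
    have := (MvPolynomial.isWeightedHomogeneous_C ![4, 6] (((b : ℤ) : k)⁻¹)).mul hA'
    simpa using this
  have hAq : MvPolynomial.aeval ![Qk k, Rk k] (MvPolynomial.C (((b : ℤ) : k)⁻¹) * A') = 1 := by
    rw [map_mul, hA'q', MvPolynomial.aeval_C, PowerSeries.algebraMap_apply,
      Algebra.algebraMap_self_apply, ← map_mul, inv_mul_cancel₀ hbk, map_one]
  have key := swd_core k l hl Ps (Qk k) (Rk k) hP0 (constantCoeff_Qk k) (constantCoeff_Rk k)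
    (coeff_one_disck k l hl) hP hQ hR _ hAwt hAq F w.toNat hF _ h0 hFq'
  obtain ⟨e, he⟩ := key
  refine ⟨e, ?_⟩
  have h1 : ((w.toNat : ℕ) : ℤ) = w := Int.toNat_of_nonneg hw
  rw [← h1, he]
  push_cast [Nat.cast_sub hlp.one_lt.le]
  ring

end

end Fermat.Agent.S16x.Swd.H14
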