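import Mathlib
import Fermat.Agent.S16x.Swd.H29_Asm
import Fermat.Agent.S16x.Swd.H14_Core
import Fermat.Agent.S16x.Swd.H8_Ram
import Fermat.Agent.S16x.Upl.Defs

/-!
# S16, package [SWD]: the final statement (helper29)

All leaves plugged in: [RAM] (helper8, `H8_Ram`), [ALG] (helper14, `H14_Core`), [VS] (helper7,
`H7_VS`), [POLY] and [ASM] (helper29).

* `stRam : StRam`, `stCore : StCore` ;
* `swd_hom` : **(SWD)** for an arbitrary subring `R ⊆ ℂ` and an arbitrary ring homomorphism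
  `φ : R → k` into a field of characteristic `l ≥ 5` ;
* `stSwd : Upl.StSwd` : the interface of [UPL]/[UPP], verbatim.
-/

set_option autoImplicit false

open UpperHalfPlane ModularForm
open scoped MatrixGroups ModularForm

noncomputable section

namespace Fermat.Agent.S16x.Swd.H29

universe u

/-- The leaf [RAM] (helper8). -/
theorem stRam : StRam :=
  ⟨H8.Pz, H8.Qz, H8.Rz, H8.constantCoeff_Pz, H8.qExpansion_E4_eq_map.symm,
    H8.qExpansion_E6_eq_map.symm, H8.ramanujan_Pz, H8.ramanujan_Qz, H8.ramanujan_Rz⟩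

/-- The leaf [ALG] (helper14). -/
theorem stCore : StCore.{u} :=
  fun k _ l _ _ hl Ps Qs Rs hP0 hQ0 hR0 hD0 hP hQ hR A hA hAq f w hf c hc hfq =>
    H14.swd_core k l hl Ps Qs Rs hP0 hQ0 hR0 hD0 hP hQ hR A hA hAq f w hf c hc hfq

/-- **(SWD)** (Swinnerton-Dyer, Serre): let `f` be a level-one modular form of weight `w` whose
`q`-expansion has coefficients in a subring `R` of `ℂ`, and let `φ : R → k` be a ring
homomorphism to a field of characteristic `l ≥ 5`.  If the reduction of the `q`-expansion of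
`f` is a nonzero constant, then `(l - 1) ∣ w`. -/
theorem swd_hom (l : ℕ) [Fact l.Prime] (hl : 5 ≤ l) (R : Subring ℂ) {k : Type u} [Field k]
    [CharP k l] (φ : R →+* k) (w : ℤ) (f : ModularForm 𝒮ℒ w)
    (hf : ∀ n, (qExpansion 1 f).coeff n ∈ R)
    (hn : ∀ n, 1 ≤ n → φ ⟨(qExpansion 1 f).coeff n, hf n⟩ = 0)
    (h0 : φ ⟨(qExpansion 1 f).coeff 0, hf 0⟩ ≠ 0) : ((l : ℤ) - 1) ∣ w :=
  swd_hom_of stRam stCore l hl R φ w f hf hn h0

/-- The interface `Upl.StSwd` of [UPL]/[UPP], verbatim. -/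
theorem stSwd : Upl.StSwd :=
  fun l _ hl R _ _ _ _ _ φ w f hf hn h0 => swd_hom l hl R φ w f hf hn h0

end Fermat.Agent.S16x.Swd.H29
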