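import Mathlib
import Fermat.Agent.S16x.Asm.H6_Int
import Fermat.Agent.S16x.Swd.H7_VS

/-!
# S16 / [SWD] / [VS] : adapters of von Staudt to the shared vocabulary `intL`, `psInt`, `psMul`

For a prime `l ≥ 5`:  `E_{l-1} ∈ psInt l`  and  `E_{l-1} - 1 ∈ psMul l l`.
Also the arbitrary-subring form used by the [SWD] assembly.
-/

set_option autoImplicit false

namespace Fermat.Agent.S16x.Swd.H7

open ModularForm ModularFormClass EisensteinSeries ArithmeticFunction UpperHalfPlane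

/-- [VS] for an arbitrary subring `R ⊆ ℂ` in which every integer prime to `l` is invertible:
the coefficients of `E_{l-1}` of index `≥ 1` are in `l * R`, the constant term is `1`. -/
theorem h7_vs_subring (l : ℕ) [Fact l.Prime] (hl : 5 ≤ l) (hk : 3 ≤ l - 1) (R : Subring ℂ)
    (hR : ∀ b : ℤ, ¬ (l : ℤ) ∣ b → ((b : ℂ))⁻¹ ∈ R) :
    (qExpansion 1 (E hk)).coeff 0 = 1 ∧
      ∀ m : ℕ, 1 ≤ m → ∃ r ∈ R, (qExpansion 1 (E hk)).coeff m = (l : ℂ) * r := by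
  obtain ⟨a, b, hb, h0, hm⟩ := h7_vs_E l hl hk
  refine ⟨h0, fun m hm1 => ?_⟩
  refine ⟨(a : ℂ) * ((b : ℂ))⁻¹ * (sigma (l - 2) m : ℂ), ?_, ?_⟩
  · exact Subring.mul_mem _ (Subring.mul_mem _ (intCast_mem _ a) (hR b hb)) (natCast_mem _ _)
  · rw [hm m hm1]
    ring

/-- Inverses of integers prime to `l` are `l`-integral. -/
theorem h7_inv_mem_intL (l : ℕ) [Fact l.Prime] (b : ℤ) (hb : ¬ (l : ℤ) ∣ b) :
    ((b : ℂ))⁻¹ ∈ intL l := by
  have hlp : l.Prime := Fact.out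
  have hb0 : b ≠ 0 := fun h => hb (h ▸ dvd_zero _)
  have hcop : (b.natAbs).Coprime l := by
    rw [Nat.coprime_comm]
    refine (Nat.Prime.coprime_iff_not_dvd hlp).mpr ?_
    intro h
    exact hb (Int.natCast_dvd.mpr h)
  have hbC : (b : ℂ) ≠ 0 := by exact_mod_cast hb0
  refine ⟨b.natAbs, hcop, ?_⟩
  have e : ((b.natAbs : ℕ) : ℂ) * ((b : ℂ))⁻¹ = ((b.sign : ℤ) : ℂ) := by
    have h1 : (((b.natAbs : ℕ) : ℤ) : ℂ) = ((b.sign * b : ℤ) : ℂ) := by
      rw [Int.sign_mul_self b]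
    have h2 : ((b.natAbs : ℕ) : ℂ) = ((b.sign : ℤ) : ℂ) * (b : ℂ) := by
      rw [← Int.cast_mul, ← h1, Int.cast_natCast]
    rw [h2, mul_assoc, mul_inv_cancel₀ hbC, mul_one]
  rw [e]
  exact isIntegral_algebraMap (R := ℤ) (A := ℂ) (x := b.sign)

/-- [VS] in the shared vocabulary: `E_{l-1}` has `l`-integral `q`-expansion. -/
theorem h7_vs_psInt (l : ℕ) [Fact l.Prime] (hl : 5 ≤ l) (hk : 3 ≤ l - 1) :
    qExpansion 1 (E hk) ∈ psInt l := by
  obtain ⟨h0, hm⟩ := h7_vs_subring l hl hk (intL l) (h7_inv_mem_intL l)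
  intro n
  rcases Nat.eq_zero_or_pos n with rfl | hn
  · rw [h0]; exact Subring.one_mem _
  · obtain ⟨r, hr, e⟩ := hm n hn
    rw [e]
    exact Subring.mul_mem _ (natCast_mem_intL l l) hr

/-- [VS] in the shared vocabulary: `E_{l-1} ≡ 1 mod l`. -/
theorem h7_vs_psMul (l : ℕ) [Fact l.Prime] (hl : 5 ≤ l) (hk : 3 ≤ l - 1) :
    qExpansion 1 (E hk) - 1 ∈ psMul l (l : ℂ) := by
  obtain ⟨h0, hm⟩ := h7_vs_subring l hl hk (intL l) (h7_inv_mem_intL l)
  intro n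
  rcases Nat.eq_zero_or_pos n with rfl | hn
  · refine ⟨0, Subring.zero_mem _, ?_⟩
    rw [map_sub, h0]
    simp
  · obtain ⟨r, hr, e⟩ := hm n hn
    refine ⟨r, hr, ?_⟩
    rw [map_sub, e, PowerSeries.coeff_one, if_neg (by omega)]
    ring

end Fermat.Agent.S16x.Swd.H7
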